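/-
S29lib, block E (helper4): the Galois action transported to the lattice side.

For `C : ComparisonData N p` the action of `σ ∈ G_ℚ` on `J₀(N)[p^k]` becomes, through `C.κ k`, a
matrix `galMat C k σ` over `ℤ/p^k`.  It is multiplicative in `σ`, commutes with the Hecke matrices
`C.t ℓ`, is compatible with the reductions `ℤ/p^(k+1) → ℤ/p^k`, and inherits from `LocalData N p`
the inertia / Frobenius / finite level statements.
-/
import Mathlib
import Fermat.Agent.S29lib.Interface.Basic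

set_option autoImplicit false

noncomputable section

namespace Fermat.Agent.S29lib.E

open ModularCurve Matrix

/-- `ℚ̄` -/
local notation "Qb" => AlgebraicClosure ℚ
/-- `G_ℚ` -/
local notation "GQ" => (AlgebraicClosure ℚ ≃ₐ[ℚ] AlgebraicClosure ℚ)

section General

/-- two square matrices with the same action on all vectors are equal. -/
theorem matrix_ext_mulVec {R : Type*} [CommSemiring R] {n : Type*} [Fintype n] [DecidableEq n]
    {A B : Matrix n n R} (h : ∀ v, A *ᵥ v = B *ᵥ v) : A = B := by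
  apply Matrix.toLin'.injective
  apply LinearMap.ext
  intro v
  rw [Matrix.toLin'_apply, Matrix.toLin'_apply, h v]

end General

variable {N p : ℕ} [NeZero N]

/-- the action of `σ` on the `n`-torsion. -/
def torsAct (N : ℕ) [NeZero N] (n : ℕ) (σ : GQ) : Tors N n →+ Tors N n where
  toFun x := ⟨σ • (x : JZero N), smul_mem_Tors σ x.2⟩
  map_zero' := Subtype.ext (smul_zero σ)
  map_add' x y := Subtype.ext (smul_add σ (x : JZero N) (y : JZero N))

@[simp] lemma coe_torsAct (n : ℕ) (σ : GQ) (x : Tors N n) :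
    ((torsAct N n σ x : Tors N n) : JZero N) = σ • (x : JZero N) := rfl

variable (C : ComparisonData N p)

/-- the transported action, as an additive endomorphism of `(ℤ/p^k)^r`. -/
def galEnd (k : ℕ) (σ : GQ) : (Fin C.r → ZMod (p ^ k)) →+ (Fin C.r → ZMod (p ^ k)) :=
  (C.κ k).toAddMonoidHom.comp ((torsAct N (p ^ k) σ).comp (C.κ k).symm.toAddMonoidHom)

lemma galEnd_kappa (k : ℕ) (σ : GQ) (x : Tors N (p ^ k)) :
    galEnd C k σ (C.κ k x) = C.κ k (torsAct N (p ^ k) σ x) := by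
  simp [galEnd]

/-- the transported action as a matrix over `ℤ/p^k`. -/
def galMatFun (k : ℕ) (σ : GQ) : Matrix (Fin C.r) (Fin C.r) (ZMod (p ^ k)) :=
  LinearMap.toMatrix' ((galEnd C k σ).toZModLinearMap (p ^ k))

lemma galMatFun_mulVec (k : ℕ) (σ : GQ) (v : Fin C.r → ZMod (p ^ k)) :
    galMatFun C k σ *ᵥ v = galEnd C k σ v := by
  rw [galMatFun, ← Matrix.toLin'_apply, Matrix.toLin'_toMatrix']
  rfl

/-- **(1)** the matrix computes the Galois action through `κ`. -/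
theorem galMatFun_mulVec_kappa (k : ℕ) (σ : GQ) (x : Tors N (p ^ k)) :
    galMatFun C k σ *ᵥ (C.κ k x) = C.κ k (torsAct N (p ^ k) σ x) := by
  rw [galMatFun_mulVec, galEnd_kappa]

lemma exists_kappa_eq (k : ℕ) (v : Fin C.r → ZMod (p ^ k)) : ∃ x, C.κ k x = v :=
  (C.κ k).surjective v

/-- the transported Galois action, as a monoid homomorphism to matrices over `ℤ/p^k`. -/
def galMat (k : ℕ) : GQ →* Matrix (Fin C.r) (Fin C.r) (ZMod (p ^ k)) where
  toFun := galMatFun C k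
  map_one' := by
    apply matrix_ext_mulVec
    intro v
    obtain ⟨x, rfl⟩ := exists_kappa_eq C k v
    rw [galMatFun_mulVec_kappa, Matrix.one_mulVec]
    congr 1
    exact Subtype.ext (one_smul _ _)
  map_mul' σ τ := by
    apply matrix_ext_mulVec
    intro v
    obtain ⟨x, rfl⟩ := exists_kappa_eq C k v
    rw [← Matrix.mulVec_mulVec, galMatFun_mulVec_kappa, galMatFun_mulVec_kappa,
      galMatFun_mulVec_kappa]
    congr 1
    exact Subtype.ext (mul_smul σ τ _)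

/-- **(1)** `κ (σ • x) = galMat σ · κ x`. -/
theorem kappa_smul (k : ℕ) (σ : GQ) (x : Tors N (p ^ k)) :
    C.κ k ⟨σ • (x : JZero N), smul_mem_Tors σ x.2⟩ = galMat C k σ *ᵥ (C.κ k x) :=
  (galMatFun_mulVec_kappa C k σ x).symm

theorem galMat_mulVec_kappa (k : ℕ) (σ : GQ) (x : Tors N (p ^ k)) :
    galMat C k σ *ᵥ (C.κ k x) = C.κ k ⟨σ • (x : JZero N), smul_mem_Tors σ x.2⟩ :=
  galMatFun_mulVec_kappa C k σ x

/-- **(2)** the Galois matrices commute with the Hecke matrices. -/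
theorem galMat_commute (k : ℕ) (σ : GQ) (ℓ : Nat.Primes) :
    galMat C k σ * (C.t ℓ).map (Int.cast : ℤ → ZMod (p ^ k)) =
      (C.t ℓ).map (Int.cast : ℤ → ZMod (p ^ k)) * galMat C k σ := by
  apply matrix_ext_mulVec
  intro v
  obtain ⟨x, rfl⟩ := exists_kappa_eq C k v
  rw [← Matrix.mulVec_mulVec, ← Matrix.mulVec_mulVec, ← C.κ_hecke, galMat_mulVec_kappa,
    galMat_mulVec_kappa, ← C.κ_hecke]
  congr 1
  exact Subtype.ext (C.TJ_galois ℓ σ x).symm

/-- **(3)** compatibility with the reductions `ℤ/p^(k+1) → ℤ/p^k`. -/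
theorem galMat_cast (k : ℕ) (σ : GQ) :
    (galMat C (k + 1) σ).map (ZMod.castHom (pow_dvd_pow p (Nat.le_succ k)) (ZMod (p ^ k))) =
      galMat C k σ := by
  set f := ZMod.castHom (pow_dvd_pow p (Nat.le_succ k)) (ZMod (p ^ k)) with hf
  apply matrix_ext_mulVec
  intro w
  have hsurj : Function.Surjective f := ZMod.ringHom_surjective f
  choose g hg using hsurj
  obtain ⟨x, hx⟩ := exists_kappa_eq C (k + 1) (fun i => g (w i))
  have hw : w = fun i => f (C.κ (k + 1) x i) := by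
    funext i
    rw [hx, hg]
  have hcompat := C.κ_compat k x
  have hcompat' := C.κ_compat k ⟨σ • (x : JZero N), smul_mem_Tors σ x.2⟩
  rw [hw]
  have h1 : (galMat C (k + 1) σ).map f *ᵥ (fun i => f (C.κ (k + 1) x i)) =
      fun i => f ((galMat C (k + 1) σ *ᵥ (C.κ (k + 1) x)) i) := by
    funext i
    exact (RingHom.map_mulVec f (galMat C (k + 1) σ) (C.κ (k + 1) x) i).symm
  rw [h1, galMat_mulVec_kappa, ← hcompat', ← hcompat, galMat_mulVec_kappa]
  congr 1
  exact Subtype.ext (galois_smul_zsmul σ (p : ℤ) (x : JZero N)).symm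

/-- integer lifts of the Galois matrices. -/
def galLift (k : ℕ) (σ : GQ) : Matrix (Fin C.r) (Fin C.r) ℤ :=
  (galMat C k σ).map (fun a : ZMod (p ^ k) => (a.cast : ℤ))

theorem galLift_cast (k : ℕ) (σ : GQ) :
    (galLift C k σ).map (Int.cast : ℤ → ZMod (p ^ k)) = galMat C k σ := by
  ext i j
  simp [galLift, Matrix.map_apply]

section Local

variable (h : LocalData N p)
include h

/-- **(4)** inertia at `ℓ ∤ Np` acts trivially. -/
theorem galMat_inertia (k : ℕ) {ℓ : ℕ} (hℓ : ℓ.Prime) (hℓNp : ¬ ℓ ∣ N * p)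
    {A : ValuationSubring Qb} (hA : A.LiesOverPrime ℓ) {σ : GQ}
    (hσ : σ ∈ A.inertiaSubgroupIn ℚ) : galMat C k σ = 1 := by
  apply matrix_ext_mulVec
  intro v
  obtain ⟨x, rfl⟩ := exists_kappa_eq C k v
  rw [galMat_mulVec_kappa, Matrix.one_mulVec]
  congr 1
  exact Subtype.ext (h.unram ℓ hℓ hℓNp A hA σ hσ k x x.2)

/-- **(5)** the Frobenius quadratic at `ℓ ∤ Np`. -/
theorem galMat_frob (k : ℕ) {ℓ : ℕ} (hℓ : ℓ.Prime) (hℓNp : ¬ ℓ ∣ N * p)
    {A : ValuationSubring Qb} (hA : A.LiesOverPrime ℓ) {σ : GQ}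
    (hσ : A.IsFrobeniusAt σ ℓ) :
    galMat C k σ * galMat C k σ -
      (C.t ⟨ℓ, hℓ⟩).map (Int.cast : ℤ → ZMod (p ^ k)) * galMat C k σ +
        (ℓ : ZMod (p ^ k)) • (1 : Matrix (Fin C.r) (Fin C.r) (ZMod (p ^ k))) = 0 := by
  apply matrix_ext_mulVec
  intro v
  obtain ⟨x, rfl⟩ := exists_kappa_eq C k v
  have hℓN : ¬ ((⟨ℓ, hℓ⟩ : Nat.Primes) : ℕ) ∣ N := fun hd => hℓNp (Dvd.dvd.mul_right hd p)
  have hfrob := h.frob ℓ hℓ hℓNp A hA σ hσ k x x.2
  rw [← C.TJ_good ⟨ℓ, hℓ⟩ hℓN] at hfrob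
  -- the identity inside `Tors`
  have hT : (torsAct N (p ^ k) σ (torsAct N (p ^ k) σ x)) -
      (⟨C.TJ ⟨ℓ, hℓ⟩ (torsAct N (p ^ k) σ x), map_mem_Tors (C.TJ ⟨ℓ, hℓ⟩)
        (torsAct N (p ^ k) σ x).2⟩ : Tors N (p ^ k)) + (ℓ : ℤ) • x = 0 :=
    Subtype.ext hfrob
  have hκ := congrArg (C.κ k) hT
  rw [map_add, map_sub, map_zsmul, map_zero, C.κ_hecke] at hκ
  rw [Matrix.zero_mulVec, Matrix.add_mulVec, Matrix.sub_mulVec, ← Matrix.mulVec_mulVec,
    ← Matrix.mulVec_mulVec, Matrix.smul_mulVec, Matrix.one_mulVec, galMat_mulVec_kappa]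
  rw [← hκ]
  congr 1
  · congr 1
    exact galMat_mulVec_kappa C k σ _
  · funext i
    simp [Pi.smul_apply, zsmul_eq_mul]

/-- **(6)** finite level. -/
theorem galMat_finiteLevel (k : ℕ) :
    ∃ L : IntermediateField ℚ Qb, FiniteDimensional ℚ L ∧
      ∀ σ : GQ, (∀ y ∈ L, σ y = y) → galMat C k σ = 1 := by
  obtain ⟨L, hL, hfix⟩ := h.finiteLevel k
  refine ⟨L, hL, fun σ hσ => ?_⟩
  apply matrix_ext_mulVec
  intro v
  obtain ⟨x, rfl⟩ := exists_kappa_eq C k v
  rw [galMat_mulVec_kappa, Matrix.one_mulVec]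
  congr 1
  exact Subtype.ext (hfix σ hσ x x.2)

end Local

end Fermat.Agent.S29lib.E
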