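/-
S29lib, block E (helper4): compatibility of the Galois matrices between arbitrary levels.
-/
import Mathlib
import Fermat.Agent.S29lib.E.GalAct

set_option autoImplicit false

noncomputable section

namespace Fermat.Agent.S29lib.E

open ModularCurve Matrix

/-- `G_ℚ` -/
local notation "GQ" => (AlgebraicClosure ℚ ≃ₐ[ℚ] AlgebraicClosure ℚ)

variable {N p : ℕ} [NeZero N] (C : ComparisonData N p)

/-- compatibility of the Galois matrices with the reductions `ℤ/p^j → ℤ/p^k`, `k ≤ j`. -/
theorem galMat_cast_le (k j : ℕ) (hkj : k ≤ j) (σ : GQ) :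
    (galMat C j σ).map (ZMod.castHom (pow_dvd_pow p hkj) (ZMod (p ^ k))) = galMat C k σ := by
  induction j, hkj using Nat.le_induction with
  | base =>
    have h : (ZMod.castHom (pow_dvd_pow p (le_refl k)) (ZMod (p ^ k))) = RingHom.id _ :=
      RingHom.ext_zmod _ _
    rw [h]
    ext a b
    simp
  | succ j hkj ih =>
    have h : (ZMod.castHom (pow_dvd_pow p (Nat.le_succ_of_le hkj)) (ZMod (p ^ k))) =
        (ZMod.castHom (pow_dvd_pow p hkj) (ZMod (p ^ k))).comp
          (ZMod.castHom (pow_dvd_pow p (Nat.le_succ j)) (ZMod (p ^ j))) :=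
      RingHom.ext_zmod _ _
    rw [← ih, ← galMat_cast C j σ, Matrix.map_map, h]
    rfl

/-- any ring map `ι : ℤ/p^1 → k₀`, composed with the reduction from level `j ≥ 1`, sends the
level `j` Galois matrix to the Galois matrix over `k₀`. -/
theorem galMat_map_comp {k₀ : Type*} [Semiring k₀] (ι : ZMod (p ^ 1) →+* k₀) (j : ℕ) (hj : 1 ≤ j)
    (σ : GQ) :
    (galMat C j σ).map (ι.comp (ZMod.castHom (pow_dvd_pow p hj) (ZMod (p ^ 1)))) =
      (galMat C 1 σ).map ι := by
  rw [← galMat_cast_le C 1 j hj σ, Matrix.map_map]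
  rfl

end Fermat.Agent.S29lib.E
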