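/-
S29lib, block E (helper8).  Pure algebra: echelon bases of saturated submodules of `O^ι` over a
valuation ring `O`.
-/
import Mathlib

set_option autoImplicit false

namespace Fermat.Agent.S29lib.E

open Matrix

variable {O : Type*} [CommRing O] [IsDomain O] [ValuationRing O]
variable {ι : Type*} [Fintype ι] [DecidableEq ι]

/-- in a valuation ring, a nonempty finite family contains an element dividing all the others -/
lemma exists_dvd_all_finset {α : Type*} (f : α → O) (s : Finset α) (hs : s.Nonempty) :
    ∃ c ∈ s, ∀ b ∈ s, f c ∣ f b := by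
  classical
  induction hs using Finset.Nonempty.cons_induction with
  | singleton a => exact ⟨a, by simp, by simp⟩
  | cons a s ha hs ih =>
    obtain ⟨c, hc, hcb⟩ := ih
    rcases ValuationRing.dvd_total (f a) (f c) with h | h
    · refine ⟨a, by simp, fun b hb => ?_⟩
      rcases Finset.mem_cons.mp hb with rfl | hb
      · exact dvd_rfl
      · exact h.trans (hcb b hb)
    · refine ⟨c, by simp [hc], fun b hb => ?_⟩
      rcases Finset.mem_cons.mp hb with rfl | hb
      · exact h
      · exact hcb b hb

lemma exists_dvd_all [Nonempty ι] (f : ι → O) : ∃ c, ∀ b, f c ∣ f b := by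
  obtain ⟨c, -, hc⟩ := exists_dvd_all_finset f Finset.univ Finset.univ_nonempty
  exact ⟨c, fun b => hc b (Finset.mem_univ b)⟩

/-- a submodule of `O^ι` is saturated if it is closed under division by nonzero scalars -/
def IsSat (E : Submodule O (ι → O)) : Prop :=
  ∀ c : O, c ≠ 0 → ∀ v : ι → O, c • v ∈ E → v ∈ E

/-- echelon family (not necessarily spanning) -/
structure IsEchelon (E : Submodule O (ι → O)) (S : Finset ι) (v : ι → ι → O) : Prop where
  mem : ∀ a ∈ S, v a ∈ E
  diag : ∀ a ∈ S, ∀ b ∈ S, v a b = if a = b then 1 else 0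

/-- echelon basis -/
structure IsEchelonBasis (E : Submodule O (ι → O)) (S : Finset ι) (v : ι → ι → O) : Prop
    extends IsEchelon E S v where
  span : ∀ x ∈ E, x = ∑ a ∈ S, x a • v a

lemma IsEchelon.sum_apply {E : Submodule O (ι → O)} {S : Finset ι} {v : ι → ι → O}
    (h : IsEchelon E S v) (c : ι → O) {b : ι} (hb : b ∈ S) :
    (∑ a ∈ S, c a • v a) b = c b := by
  rw [Finset.sum_apply]
  have : ∀ a ∈ S, (c a • v a) b = if a = b then c a else 0 := by
    intro a ha
    rw [Pi.smul_apply, h.diag a ha b hb, smul_eq_mul]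
    split_ifs <;> simp
  rw [Finset.sum_congr rfl this, Finset.sum_ite_eq' S b]
  simp [hb]

/-- the inductive step: a non-spanning echelon family can be enlarged -/
lemma IsEchelon.exists_succ {E : Submodule O (ι → O)} (hE : IsSat E) {S : Finset ι}
    {v : ι → ι → O} (h : IsEchelon E S v) {x : ι → O} (hx : x ∈ E)
    (hne : x ≠ ∑ a ∈ S, x a • v a) :
    ∃ (S' : Finset ι) (v' : ι → ι → O), IsEchelon E S' v' ∧ S'.card = S.card + 1 := by
  classical
  set x' : ι → O := x - ∑ a ∈ S, x a • v a with hx'
  have hx'E : x' ∈ E :=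
    E.sub_mem hx (E.sum_mem fun a ha => E.smul_mem _ (h.mem a ha))
  have hx'0 : x' ≠ 0 := fun h0 => hne (sub_eq_zero.mp h0)
  have hx'S : ∀ b ∈ S, x' b = 0 := by
    intro b hb
    rw [hx', Pi.sub_apply, h.sum_apply x hb, sub_self]
  obtain ⟨j, hj⟩ : ∃ j, x' j ≠ 0 := by
    by_contra hcon
    push Not at hcon
    exact hx'0 (funext hcon)
  have : Nonempty ι := ⟨j⟩
  obtain ⟨c, hc⟩ := exists_dvd_all x'
  have hc0 : x' c ≠ 0 := by
    intro h0
    rw [h0] at hc
    exact hj (zero_dvd_iff.mp (hc j))
  have hcS : c ∉ S := fun hcS => hc0 (hx'S c hcS)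
  choose u hu using hc
  have huc : u c = 1 := by
    have := hu c
    exact (mul_right_eq_self₀.mp this.symm).resolve_right hc0
  have huS : ∀ b ∈ S, u b = 0 := by
    intro b hb
    have := hu b
    rw [hx'S b hb] at this
    exact (mul_eq_zero.mp this.symm).resolve_left hc0
  have huE : u ∈ E := by
    apply hE (x' c) hc0
    have : x' c • u = x' := by
      funext b
      rw [Pi.smul_apply, smul_eq_mul, ← hu b]
    rw [this]
    exact hx'E
  refine ⟨insert c S, fun a => if a = c then u else v a - v a c • u, ⟨?_, ?_⟩,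
    Finset.card_insert_of_notMem hcS⟩
  · intro a ha
    by_cases hac : a = c
    · simp only [hac, if_true]
      exact huE
    · simp only [hac, if_false]
      have haS : a ∈ S := (Finset.mem_insert.mp ha).resolve_left hac
      exact E.sub_mem (h.mem a haS) (E.smul_mem _ huE)
  · intro a ha b hb
    by_cases hac : a = c
    · subst hac
      simp only [if_true]
      by_cases hab : a = b
      · subst hab
        simp [huc]
      · have hbS : b ∈ S := (Finset.mem_insert.mp hb).resolve_left (fun h => hab h.symm)
        simp [hab, huS b hbS]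
    · have haS : a ∈ S := (Finset.mem_insert.mp ha).resolve_left hac
      simp only [hac, if_false, Pi.sub_apply, Pi.smul_apply, smul_eq_mul]
      by_cases hbc : b = c
      · subst hbc
        simp [huc, hac]
      · have hbS : b ∈ S := (Finset.mem_insert.mp hb).resolve_left hbc
        rw [huS b hbS, mul_zero, sub_zero, h.diag a haS b hbS]

/-- **Echelon basis theorem**: every saturated submodule of `O^ι` (`O` a valuation ring) has an
echelon basis. -/
theorem exists_echelonBasis (E : Submodule O (ι → O)) (hE : IsSat E) :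
    ∃ (S : Finset ι) (v : ι → ι → O), IsEchelonBasis E S v := by
  classical
  by_contra hcon
  push Not at hcon
  have key : ∀ n : ℕ, ∃ (S : Finset ι) (v : ι → ι → O), IsEchelon E S v ∧ S.card = n := by
    intro n
    induction n with
    | zero =>
      exact ⟨∅, fun _ => 0, ⟨by simp, by simp⟩, rfl⟩
    | succ n ih =>
      obtain ⟨S, v, hSv, hcard⟩ := ih
      have hns : ¬ ∀ x ∈ E, x = ∑ a ∈ S, x a • v a := fun hs => hcon S v ⟨hSv, hs⟩
      push Not at hns
      obtain ⟨x, hx, hne⟩ := hns
      obtain ⟨S', v', h', hc'⟩ := hSv.exists_succ hE hx hne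
      exact ⟨S', v', h', by rw [hc', hcard]⟩
  obtain ⟨S, v, -, hcard⟩ := key (Fintype.card ι + 1)
  have := Finset.card_le_univ S
  omega

end Fermat.Agent.S29lib.E
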