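/-
S29lib, block E (helper8).  Pure algebra: the common kernel `E ⊆ O^ι` of a family of square
matrices over a valuation ring `O` has an echelon basis; "dual echelon" statement (the coordinate
forms off the pivot set are, up to a nonzero factor, combinations of the rows); consequences:
the kernel over any field `L ⊇ O` is spanned by the echelon basis, and approximate kernel vectors
are congruent to true kernel vectors.
-/
import Fermat.Agent.S29lib.E.Echelon

set_option autoImplicit false

namespace Fermat.Agent.S29lib.E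

open Matrix

section diag

variable {F : Type*} {ι : Type*} [DecidableEq ι]

/-- coordinates of a combination of a "diagonal" family -/
lemma sum_smul_apply_of_diag [CommSemiring F] {S : Finset ι} {w : ι → ι → F}
    (hw : ∀ a ∈ S, ∀ b ∈ S, w a b = if a = b then 1 else 0) (c : ι → F) {b : ι} (hb : b ∈ S) :
    (∑ a ∈ S, c a • w a) b = c b := by
  rw [Finset.sum_apply]
  have : ∀ a ∈ S, (c a • w a) b = if a = b then c a else 0 := by
    intro a ha
    rw [Pi.smul_apply, hw a ha b hb, smul_eq_mul]
    split_ifs <;> simp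
  rw [Finset.sum_congr rfl this, Finset.sum_ite_eq' S b]
  simp [hb]

lemma linearIndependent_of_diag [Field F] {S : Finset ι} {w : ι → ι → F}
    (hw : ∀ a ∈ S, ∀ b ∈ S, w a b = if a = b then 1 else 0) :
    LinearIndependent F (fun a : S => w a) := by
  classical
  rw [Fintype.linearIndependent_iff]
  intro g hg a
  set c : ι → F := fun a => if h : a ∈ S then g ⟨a, h⟩ else 0 with hc
  have h1 : ∑ i : S, g i • w i = ∑ a ∈ S, c a • w a := by
    rw [← Finset.sum_coe_sort S (fun a => c a • w a)]
    refine Finset.sum_congr rfl fun i _ => ?_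
    simp [hc, i.2]
  have h2 := sum_smul_apply_of_diag hw c a.2
  rw [← h1, hg] at h2
  simpa [hc, a.2] using h2.symm

lemma finrank_span_of_diag [Field F] {S : Finset ι} {w : ι → ι → F}
    (hw : ∀ a ∈ S, ∀ b ∈ S, w a b = if a = b then 1 else 0) :
    Module.finrank F ↥(Submodule.span F (Set.range fun a : S => w a)) = S.card := by
  rw [finrank_span_eq_card (linearIndependent_of_diag hw), Fintype.card_coe]

end diag

variable {O : Type*} [CommRing O] {ι : Type*} [Fintype ι] [DecidableEq ι]
variable {I : Type*} (A : I → Matrix ι ι O)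

/-- the common kernel of the matrices `A i` on `O^ι` -/
def kerO : Submodule O (ι → O) := ⨅ i, LinearMap.ker (A i).mulVecLin

lemma mem_kerO {x : ι → O} : x ∈ kerO A ↔ ∀ i, A i *ᵥ x = 0 := by
  simp [kerO, Submodule.mem_iInf]

lemma isSat_kerO [IsDomain O] [ValuationRing O] : IsSat (kerO A) := by
  intro c hc v hv
  rw [mem_kerO] at hv ⊢
  intro i
  have := hv i
  rw [mulVec_smul] at this
  exact (smul_eq_zero.mp this).resolve_left hc

/-- the span of all rows of all the `A i` -/
def rowSpan : Submodule O (ι → O) := Submodule.span O (Set.range fun ij : I × ι => A ij.1 ij.2)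

lemma rowSpan_dot_eq_zero {L : Type*} [CommRing L] (emb : O →+* L) {ρ : ι → O}
    (hρ : ρ ∈ rowSpan A) (x : ι → L) (hx : ∀ i, (A i).map emb *ᵥ x = 0) :
    ∑ b, emb (ρ b) * x b = 0 := by
  induction hρ using Submodule.span_induction with
  | mem ρ h =>
    obtain ⟨⟨i, j⟩, rfl⟩ := h
    have := congrFun (hx i) j
    simpa [mulVec, dotProduct] using this
  | zero => simp
  | add ρ ρ' _ _ h h' => simp [add_mul, Finset.sum_add_distrib, h, h']
  | smul c ρ _ h => simp [mul_assoc, ← Finset.mul_sum, h]

lemma rowSpan_dvd_dot {ρ : ι → O} (hρ : ρ ∈ rowSpan A) (x : ι → O) (c : O)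
    (hx : ∀ i j, c ∣ (A i *ᵥ x) j) : c ∣ ∑ b, ρ b * x b := by
  induction hρ using Submodule.span_induction with
  | mem ρ h =>
    obtain ⟨⟨i, j⟩, rfl⟩ := h
    have := hx i j
    simpa [mulVec, dotProduct] using this
  | zero => simp
  | add ρ ρ' _ _ h h' =>
    simp only [Pi.add_apply, add_mul, Finset.sum_add_distrib]
    exact dvd_add h h'
  | smul a ρ _ h =>
    simp only [Pi.smul_apply, smul_eq_mul, mul_assoc, ← Finset.mul_sum]
    exact Dvd.dvd.mul_left h a

/-- auxiliary module for the dual echelon statement: vectors supported off `S` which, up to a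
nonzero factor, agree off `S` with an element of the row span -/
def dualMod [IsDomain O] (S : Finset ι) : Submodule O (ι → O) where
  carrier := {ψ | (∀ a ∈ S, ψ a = 0) ∧
    ∃ d : O, d ≠ 0 ∧ ∃ ρ ∈ rowSpan A, ∀ b' ∉ S, d * ψ b' = ρ b'}
  zero_mem' := ⟨fun _ _ => rfl, 1, one_ne_zero, 0, zero_mem _, fun _ _ => by simp⟩
  add_mem' := by
    rintro ψ ψ' ⟨h0, d, hd, ρ, hρ, h⟩ ⟨h0', d', hd', ρ', hρ', h'⟩
    refine ⟨fun a ha => by simp [h0 a ha, h0' a ha], d * d', mul_ne_zero hd hd',
      d' • ρ + d • ρ', add_mem (Submodule.smul_mem _ _ hρ) (Submodule.smul_mem _ _ hρ'),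
      fun b' hb' => ?_⟩
    simp only [Pi.add_apply, Pi.smul_apply, smul_eq_mul, ← h b' hb', ← h' b' hb']
    ring
  smul_mem' := by
    rintro c ψ ⟨h0, d, hd, ρ, hρ, h⟩
    refine ⟨fun a ha => by simp [h0 a ha], d, hd, c • ρ, Submodule.smul_mem _ _ hρ,
      fun b' hb' => ?_⟩
    simp only [Pi.smul_apply, smul_eq_mul, ← h b' hb']
    ring

lemma isSat_dualMod [IsDomain O] [ValuationRing O] (S : Finset ι) : IsSat (dualMod A S) := by
  rintro c hc ψ ⟨h0, d, hd, ρ, hρ, h⟩
  refine ⟨fun a ha => ?_, d * c, mul_ne_zero hd hc, ρ, hρ, fun b' hb' => ?_⟩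
  · have := h0 a ha
    simpa [hc] using this
  · rw [← h b' hb', Pi.smul_apply, smul_eq_mul, mul_assoc]

/-- **Dual echelon statement** -/
theorem exists_dual [IsDomain O] [ValuationRing O] {S : Finset ι} {v : ι → ι → O}
    (h : IsEchelonBasis (kerO A) S v) {b : ι} (hb : b ∉ S) :
    ∃ d : O, d ≠ 0 ∧ ∃ ρ ∈ rowSpan A, ∀ b' ∉ S, ρ b' = if b = b' then d else 0 := by
  classical
  obtain ⟨S', ψ, hψ⟩ := exists_echelonBasis (dualMod A S) (isSat_dualMod A S)
  -- `S'` is disjoint from `S`
  have hdisj : ∀ a ∈ S', a ∉ S := by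
    intro a ha haS
    have h1 := hψ.diag a ha a ha
    have h0 := (hψ.mem a ha).1 a haS
    rw [h0] at h1
    simp at h1
  -- every index off `S` is in `S'`
  have hall : ∀ b₀ ∉ S, b₀ ∈ S' := by
    intro b₀ hb₀
    by_contra hb₀'
    set w : ι → O := fun j => (if j = b₀ then 1 else 0) + (if j ∈ S' then - ψ j b₀ else 0) with hw
    have hwS : ∀ a ∈ S, w a = 0 := by
      intro a ha
      have h1 : a ≠ b₀ := fun e => hb₀ (e ▸ ha)
      have h2 : a ∉ S' := fun e => hdisj a e ha
      simp [hw, h1, h2]
    have hwb : w b₀ = 1 := by simp [hw, hb₀']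
    -- every element of the dual module kills `w`
    have hkill0 : ∀ c ∈ S', ∑ j, ψ c j * w j = 0 := by
      intro c hc
      have hcb : c ≠ b₀ := fun e => hb₀' (e ▸ hc)
      simp only [hw, mul_add, Finset.sum_add_distrib, mul_ite, mul_one, mul_zero,
        Finset.sum_ite_eq', Finset.mem_univ, if_true]
      rw [← Finset.sum_filter, Finset.filter_mem_eq_inter, Finset.univ_inter]
      have : ∀ j ∈ S', ψ c j * -ψ j b₀ = if c = j then - ψ c b₀ else 0 := by
        intro j hj
        rw [hψ.diag c hc j hj]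
        split_ifs with e
        · subst e; simp
        · simp
      rw [Finset.sum_congr rfl this, Finset.sum_ite_eq S' c]
      simp [hc]
    have hkill : ∀ φ ∈ dualMod A S, ∑ j, φ j * w j = 0 := by
      intro φ hφ
      have := hψ.span φ hφ
      have h2 : ∀ j, φ j = ∑ c ∈ S', φ c * ψ c j := by
        intro j
        conv_lhs => rw [this]
        simp [Finset.sum_apply]
      have h3 : ∑ j, φ j * w j = ∑ j, (∑ c ∈ S', φ c * ψ c j) * w j :=
        Finset.sum_congr rfl fun j _ => by rw [← h2 j]
      rw [h3]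
      simp_rw [Finset.sum_mul]
      rw [Finset.sum_comm]
      refine Finset.sum_eq_zero fun c hc => ?_
      simp_rw [mul_assoc]
      rw [← Finset.mul_sum, hkill0 c hc, mul_zero]
    -- hence `w` is in the kernel
    have hwker : w ∈ kerO A := by
      rw [mem_kerO]
      intro i
      funext j
      have hrow : (fun b' => if b' ∈ S then 0 else A i j b') ∈ dualMod A S := by
        refine ⟨fun a ha => by simp [ha], 1, one_ne_zero, A i j,
          Submodule.subset_span ⟨(i, j), rfl⟩, fun b' hb' => by simp [hb']⟩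
      have := hkill _ hrow
      simp only [mulVec, dotProduct, Pi.zero_apply]
      rw [← this]
      refine Finset.sum_congr rfl fun b' _ => ?_
      by_cases hb' : b' ∈ S
      · simp [hb', hwS b' hb']
      · simp [hb']
    have := h.span w hwker
    have hw0 : w = 0 := by
      rw [this]
      exact Finset.sum_eq_zero fun a ha => by rw [hwS a ha, zero_smul]
    rw [hw0] at hwb
    simp at hwb
  obtain ⟨-, d, hd, ρ, hρ, hdρ⟩ := hψ.mem b (hall b hb)
  refine ⟨d, hd, ρ, hρ, fun b' hb' => ?_⟩
  rw [← hdρ b' hb', hψ.diag b (hall b hb) b' (hall b' hb')]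
  split_ifs <;> simp

end Fermat.Agent.S29lib.E
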