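/-
S29lib, block E (helper8).  Consequences of the echelon basis / dual echelon statement for the
common kernel of a family of matrices over a valuation ring `O`:
* the kernel over a field `L ⊇ O` is spanned by the echelon basis (`finrank_kerL`);
* the span of the reduction of the kernel has the same dimension (`finrank_redSpan`);
* approximate kernel vectors are congruent to kernel vectors (`approx`).
-/
import Fermat.Agent.S29lib.E.KerLattice

set_option autoImplicit false

namespace Fermat.Agent.S29lib.E

open Matrix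

variable {O : Type*} [CommRing O] [IsDomain O] [ValuationRing O]
variable {ι : Type*} [Fintype ι] [DecidableEq ι]
variable {I : Type*} (A : I → Matrix ι ι O)

section field

variable {L : Type*} [Field L] (emb : O →+* L)

lemma map_diag {S : Finset ι} {v : ι → ι → O} {E : Submodule O (ι → O)} (h : IsEchelon E S v) :
    ∀ a ∈ S, ∀ b ∈ S, (fun j => emb (v a j)) b = if a = b then 1 else 0 := by
  intro a ha b hb
  simp only [h.diag a ha b hb]
  split_ifs <;> simp

lemma map_mem_ker {x : ι → O} (hx : x ∈ kerO A) (i : I) :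
    (A i).map emb *ᵥ (fun j => emb (x j)) = 0 := by
  funext j
  have := RingHom.map_mulVec emb (A i) x j
  rw [(mem_kerO A).mp hx i, Pi.zero_apply, map_zero] at this
  exact this.symm

/-- a vector of `L^ι` killed by all the `A i` is the combination of the echelon basis given by
its pivot coordinates -/
theorem kerL_eq_sum (hemb : Function.Injective emb) {S : Finset ι} {v : ι → ι → O}
    (h : IsEchelonBasis (kerO A) S v) (x : ι → L) (hx : ∀ i, (A i).map emb *ᵥ x = 0) :
    x = ∑ a ∈ S, x a • (fun j => emb (v a j)) := by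
  classical
  set w : ι → ι → L := fun a j => emb (v a j) with hw
  have hdiag := map_diag emb h.toIsEchelon
  set x' : ι → L := x - ∑ a ∈ S, x a • w a with hx'
  have hx'ker : ∀ i, (A i).map emb *ᵥ x' = 0 := by
    intro i
    rw [hx', mulVec_sub, hx i, mulVec_sum, zero_sub, neg_eq_zero]
    refine Finset.sum_eq_zero fun a ha => ?_
    rw [mulVec_smul, hw]
    simp only
    rw [map_mem_ker A emb (h.mem a ha) i, smul_zero]
  have hx'S : ∀ a ∈ S, x' a = 0 := by
    intro a ha
    rw [hx', Pi.sub_apply, sum_smul_apply_of_diag hdiag x ha, sub_self]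
  have hx'0 : x' = 0 := by
    funext b
    by_cases hb : b ∈ S
    · exact hx'S b hb
    · obtain ⟨d, hd, ρ, hρ, hρd⟩ := exists_dual A h hb
      have hsum := rowSpan_dot_eq_zero A emb hρ x' hx'ker
      rw [Finset.sum_eq_single b] at hsum
      · rw [hρd b hb, if_pos rfl] at hsum
        exact (mul_eq_zero.mp hsum).resolve_left ((map_ne_zero_iff emb hemb).mpr hd)
      · intro b' _ hb'
        by_cases hb'S : b' ∈ S
        · rw [hx'S b' hb'S, mul_zero]
        · rw [hρd b' hb'S, if_neg (fun e => hb' e.symm), map_zero, zero_mul]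
      · intro hb'
        exact absurd (Finset.mem_univ b) hb'
  exact sub_eq_zero.mp hx'0

/-- the dimension of the common kernel over `L` is the number of pivots -/
theorem finrank_kerL (hemb : Function.Injective emb) {S : Finset ι} {v : ι → ι → O}
    (h : IsEchelonBasis (kerO A) S v) :
    Module.finrank L ↥(⨅ i, LinearMap.ker ((A i).map emb).mulVecLin) = S.card := by
  classical
  have hdiag := map_diag emb h.toIsEchelon
  have heq : (⨅ i, LinearMap.ker ((A i).map emb).mulVecLin) =
      Submodule.span L (Set.range fun a : S => (fun a j => emb (v a j)) a) := ?_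
  · rw [heq]
    exact finrank_span_of_diag (w := fun a j => emb (v a j)) hdiag
  apply le_antisymm
  · intro x hx
    have hx' : ∀ i, (A i).map emb *ᵥ x = 0 := by
      intro i
      have := (Submodule.mem_iInf _).mp hx i
      simpa using this
    rw [kerL_eq_sum A emb hemb h x hx']
    exact Submodule.sum_mem _ fun a ha =>
      Submodule.smul_mem _ _ (Submodule.subset_span ⟨⟨a, ha⟩, rfl⟩)
  · rw [Submodule.span_le]
    rintro _ ⟨a, rfl⟩
    refine (Submodule.mem_iInf _).mpr fun i => ?_
    rw [LinearMap.mem_ker, mulVecLin_apply]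
    exact map_mem_ker A emb (h.mem a a.2) i

end field

section residue

variable {k : Type*} [Field k] (res : O →+* k)

/-- the `k`-span of the reduction of a submodule of `O^ι` -/
def redSpan (E : Submodule O (ι → O)) : Submodule k (ι → k) :=
  Submodule.span k ((fun x : ι → O => fun j => res (x j)) '' (E : Set (ι → O)))

lemma red_mem_redSpan {E : Submodule O (ι → O)} {x : ι → O} (hx : x ∈ E) :
    (fun j => res (x j)) ∈ redSpan res E :=
  Submodule.subset_span ⟨x, hx, rfl⟩

theorem redSpan_eq_span {E : Submodule O (ι → O)} {S : Finset ι} {v : ι → ι → O}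
    (h : IsEchelonBasis E S v) :
    redSpan res E = Submodule.span k (Set.range fun a : S => fun j => res (v a j)) := by
  apply le_antisymm
  · rw [redSpan, Submodule.span_le]
    rintro _ ⟨x, hx, rfl⟩
    have hx' : (fun j => res (x j)) = ∑ a ∈ S, res (x a) • (fun j => res (v a j)) := by
      funext j
      have := congrFun (h.span x hx) j
      conv_lhs => rw [this]
      simp [Finset.sum_apply, map_sum]
    show (fun j => res (x j)) ∈ _
    rw [hx']
    exact Submodule.sum_mem _ fun a ha =>
      Submodule.smul_mem _ _ (Submodule.subset_span ⟨⟨a, ha⟩, rfl⟩)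
  · apply Submodule.span_mono
    rintro _ ⟨a, rfl⟩
    exact ⟨v a, h.mem a a.2, rfl⟩

theorem finrank_redSpan {E : Submodule O (ι → O)} {S : Finset ι} {v : ι → ι → O}
    (h : IsEchelonBasis E S v) : Module.finrank k ↥(redSpan res E) = S.card := by
  rw [redSpan_eq_span res h]
  exact finrank_span_of_diag (w := fun a j => res (v a j)) (map_diag res h.toIsEchelon)

/-- **Approximation**: for `n` large, a vector which is killed by all the `A i` modulo `π^n` is
congruent, modulo the kernel of `res`, to a vector of the kernel. -/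
theorem approx {S : Finset ι} {v : ι → ι → O} (h : IsEchelonBasis (kerO A) S v) (π : O)
    (hπ : ∀ d : O, d ≠ 0 → ∃ n : ℕ, ∃ m : O, res m = 0 ∧ π ^ n = d * m) :
    ∃ n : ℕ, ∀ x : ι → O, (∀ i j, π ^ n ∣ (A i *ᵥ x) j) →
      ∃ e ∈ kerO A, ∀ b, res (x b) = res (e b) := by
  classical
  -- coordinatewise statement
  have hcoord : ∀ b : ι, ∃ n : ℕ, b ∉ S → ∀ y : ι → O, (∀ a ∈ S, y a = 0) →
      (∀ i j, π ^ n ∣ (A i *ᵥ y) j) → res (y b) = 0 := by
    intro b
    by_cases hb : b ∈ S
    · exact ⟨0, fun h' => absurd hb h'⟩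
    · obtain ⟨d, hd, ρ, hρ, hρd⟩ := exists_dual A h hb
      obtain ⟨n, m, hm, hnm⟩ := hπ d hd
      refine ⟨n, fun _ y hyS hy => ?_⟩
      have hdvd := rowSpan_dvd_dot A hρ y (π ^ n) hy
      rw [Finset.sum_eq_single b] at hdvd
      · rw [hρd b hb, if_pos rfl, hnm] at hdvd
        obtain ⟨c, hc⟩ := (mul_dvd_mul_iff_left hd).mp hdvd
        rw [hc, map_mul, hm, zero_mul]
      · intro b' _ hb'
        by_cases hb'S : b' ∈ S
        · rw [hyS b' hb'S, mul_zero]
        · rw [hρd b' hb'S, if_neg (fun e => hb' e.symm), zero_mul]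
      · intro hb'
        exact absurd (Finset.mem_univ b) hb'
  choose n hn using hcoord
  refine ⟨∑ b, n b, fun x hx => ?_⟩
  set e : ι → O := ∑ a ∈ S, x a • v a with he
  have heker : e ∈ kerO A :=
    Submodule.sum_mem _ fun a ha => Submodule.smul_mem _ _ (h.mem a ha)
  refine ⟨e, heker, fun b => ?_⟩
  set y : ι → O := x - e with hy
  have hyS : ∀ a ∈ S, y a = 0 := by
    intro a ha
    rw [hy, Pi.sub_apply, he, sum_smul_apply_of_diag h.diag x ha, sub_self]
  have hyA : ∀ i, A i *ᵥ y = A i *ᵥ x := by
    intro i
    rw [hy, mulVec_sub, (mem_kerO A).mp heker i, sub_zero]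
  by_cases hb : b ∈ S
  · have := hyS b hb
    rw [hy, Pi.sub_apply, sub_eq_zero] at this
    rw [this]
  · have h1 : ∀ i j, π ^ n b ∣ (A i *ᵥ y) j := by
      intro i j
      rw [hyA i]
      exact (pow_dvd_pow π (Finset.single_le_sum (fun _ _ => Nat.zero_le _)
        (Finset.mem_univ b))).trans (hx i j)
    have := hn b hb y hyS h1
    rw [hy, Pi.sub_apply, map_sub, sub_eq_zero] at this
    exact this

end residue

end Fermat.Agent.S29lib.E
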