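/-
S29lib, block E (helper4): packaging.  A 2-dimensional subspace `W ≤ k₀^r` on which the Hecke
matrices act through the eigenvalues `ā_ℓ` and which is stable under the Galois matrices
(mod `p`, extended to `k₀`) is a `ResidualPiece`.
-/
import Mathlib
import Fermat.Agent.S29lib.E.GalAct

set_option autoImplicit false

noncomputable section

namespace Fermat.Agent.S29lib.E

open ModularCurve Matrix

/-- `ℚ̄` -/
local notation "Qb" => AlgebraicClosure ℚ
/-- `G_ℚ` -/
local notation "GQ" => (AlgebraicClosure ℚ ≃ₐ[ℚ] AlgebraicClosure ℚ)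

variable {N p : ℕ} [NeZero N] (C : ComparisonData N p) {k₀ : Type} [Field k₀]
  (ι : ZMod (p ^ 1) →+* k₀)

/-- the Galois matrices over `k₀`. -/
def galK : GQ →* Matrix (Fin C.r) (Fin C.r) k₀ :=
  (RingHom.mapMatrix ι : Matrix (Fin C.r) (Fin C.r) (ZMod (p ^ 1)) →+* _).toMonoidHom.comp
    (galMat C 1)

lemma galK_apply (σ : GQ) : galK C ι σ = (galMat C 1 σ).map ι := rfl

lemma galK_eq_one {σ : GQ} (hσ : galMat C 1 σ = 1) : galK C ι σ = 1 := by
  rw [galK_apply, hσ]
  exact (RingHom.mapMatrix ι).map_one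

/-- the Hecke matrices over `k₀` are the images of those over `ℤ/p`. -/
lemma map_t_map (ℓ : Nat.Primes) :
    ((C.t ℓ).map (Int.cast : ℤ → ZMod (p ^ 1))).map ι = (C.t ℓ).map (Int.cast : ℤ → k₀) := by
  ext i j
  simp [Matrix.map_apply]

/-- the Galois matrices over `k₀` commute with the Hecke matrices. -/
theorem galK_commute (σ : GQ) (ℓ : Nat.Primes) :
    galK C ι σ * (C.t ℓ).map (Int.cast : ℤ → k₀) =
      (C.t ℓ).map (Int.cast : ℤ → k₀) * galK C ι σ := by
  have h := congrArg (RingHom.mapMatrix ι) (galMat_commute C 1 σ ℓ)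
  rw [map_mul, map_mul, RingHom.mapMatrix_apply, RingHom.mapMatrix_apply, map_t_map] at h
  exact h

lemma mapMatrix_smul_one (a : ZMod (p ^ 1)) :
    (RingHom.mapMatrix ι) (a • (1 : Matrix (Fin C.r) (Fin C.r) (ZMod (p ^ 1)))) =
      ι a • (1 : Matrix (Fin C.r) (Fin C.r) k₀) := by
  ext i j
  by_cases hij : i = j
  · simp [Matrix.one_apply, hij]
  · simp [Matrix.one_apply, hij]

/-- the Frobenius quadratic over `k₀`. -/
theorem galK_frob (h : LocalData N p) {ℓ : ℕ} (hℓ : ℓ.Prime) (hℓNp : ¬ ℓ ∣ N * p)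
    {A : ValuationSubring Qb} (hA : A.LiesOverPrime ℓ) {σ : GQ} (hσ : A.IsFrobeniusAt σ ℓ) :
    galK C ι σ * galK C ι σ - (C.t ⟨ℓ, hℓ⟩).map (Int.cast : ℤ → k₀) * galK C ι σ +
      (ℓ : k₀) • (1 : Matrix (Fin C.r) (Fin C.r) k₀) = 0 := by
  have h1 := congrArg (RingHom.mapMatrix ι) (galMat_frob C h 1 hℓ hℓNp hA hσ)
  rw [map_add, map_sub, map_mul, map_mul, map_zero, mapMatrix_smul_one, map_natCast,
    RingHom.mapMatrix_apply, RingHom.mapMatrix_apply, map_t_map] at h1
  exact h1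

/-- **Packaging**: a Galois-stable 2-dimensional Hecke eigen-subspace of `k₀^r` is a residual
piece. -/
def residualPieceOfStable (h : LocalData N p) (abar : Nat.Primes → k₀)
    (W : Submodule k₀ (Fin C.r → k₀)) (hW2 : Module.finrank k₀ W = 2)
    (hWeig : ∀ ℓ : Nat.Primes, ∀ w ∈ W, (C.t ℓ).map (Int.cast : ℤ → k₀) *ᵥ w = abar ℓ • w)
    (hWstab : ∀ σ : GQ, ∀ w ∈ W, galK C ι σ *ᵥ w ∈ W) : ResidualPiece N p k₀ abar where
  W := W
  finrank_eq := hW2
  ρ :=
    { toFun := fun σ => (Matrix.mulVecLin (galK C ι σ)).restrict (hWstab σ)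
      map_one' := by
        apply LinearMap.ext
        intro w
        apply Subtype.ext
        rw [LinearMap.coe_restrict_apply, map_one, Matrix.mulVecLin_apply, Matrix.one_mulVec]
        rfl
      map_mul' := fun σ τ => by
        apply LinearMap.ext
        intro w
        apply Subtype.ext
        rw [LinearMap.coe_restrict_apply, map_mul, Matrix.mulVecLin_apply,
          ← Matrix.mulVec_mulVec]
        rfl }
  finiteLevel := by
    obtain ⟨L, hL, hfix⟩ := galMat_finiteLevel C h 1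
    refine ⟨L, hL, fun σ hσ => ?_⟩
    apply LinearMap.ext
    intro w
    apply Subtype.ext
    show galK C ι σ *ᵥ (w : Fin C.r → k₀) = w
    rw [galK_eq_one C ι (hfix σ hσ), Matrix.one_mulVec]
  unram := by
    intro ℓ hℓ hℓNp A hA σ hσ
    apply LinearMap.ext
    intro w
    apply Subtype.ext
    show galK C ι σ *ᵥ (w : Fin C.r → k₀) = w
    rw [galK_eq_one C ι (galMat_inertia C h 1 hℓ hℓNp hA hσ), Matrix.one_mulVec]
  frob := by
    intro ℓ hℓ hℓNp A hA σ hσ
    apply LinearMap.ext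
    intro w
    apply Subtype.ext
    have hq := congrArg (fun M : Matrix (Fin C.r) (Fin C.r) k₀ => M *ᵥ (w : Fin C.r → k₀))
      (galK_frob C ι h hℓ hℓNp hA hσ)
    simp only [Matrix.add_mulVec, Matrix.sub_mulVec, Matrix.zero_mulVec, Matrix.smul_mulVec,
      Matrix.one_mulVec, ← Matrix.mulVec_mulVec] at hq
    rw [hWeig ⟨ℓ, hℓ⟩ _ (hWstab σ w w.2)] at hq
    exact hq

end Fermat.Agent.S29lib.E
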