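/-
S29lib, block E (helper8).  Kaplansky, *Commutative rings*, Theorem 67 (the "u, u⁻¹ lemma"):
if `O` is a local ring, integrally closed in a field `L`, and `u : L` is a root of a polynomial
over `O` one of whose coefficients is a unit, then `u` or `u⁻¹` comes from `O`.
-/
import Mathlib

set_option autoImplicit false

namespace Fermat.Agent.S29lib.E

open Polynomial

theorem mem_or_inv_mem_of_unit_coeff_aux {O L : Type*} [CommRing O] [IsLocalRing O] [Field L]
    [Algebra O L] (hint : ∀ x : L, IsIntegral O x → x ∈ (algebraMap O L).range) (u : L) :
    ∀ (n : ℕ) (f : O[X]), f.natDegree ≤ n → aeval u f = 0 → (∃ i, IsUnit (f.coeff i)) →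
      u ∈ (algebraMap O L).range ∨ u⁻¹ ∈ (algebraMap O L).range := by
  intro n
  induction n with
  | zero =>
    intro f hdeg hf ⟨i, hi⟩
    exfalso
    have hfC : f = C (f.coeff 0) := eq_C_of_natDegree_le_zero hdeg
    have hi0 : i = 0 := by
      by_contra hne
      rw [hfC, coeff_C, if_neg hne] at hi
      exact not_isUnit_zero hi
    subst hi0
    rw [hfC, aeval_C] at hf
    exact (hi.map (algebraMap O L)).ne_zero hf
  | succ n ih =>
    intro f hdeg hf ⟨i, hi⟩
    by_cases hlt : f.natDegree ≤ n
    · exact ih f hlt hf ⟨i, hi⟩
    have hnat : f.natDegree = n + 1 := le_antisymm hdeg (by omega)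
    set a := f.leadingCoeff with ha
    by_cases hau : IsUnit a
    · -- `u` is integral
      left
      apply hint
      obtain ⟨a', ha'⟩ := hau.exists_left_inv
      refine ⟨C a' * f, monic_C_mul_of_mul_leadingCoeff_eq_one ha', ?_⟩
      rw [← aeval_def, map_mul, hf, mul_zero]
    · -- `a u` is integral
      obtain ⟨b, hb⟩ := hint _ (isIntegral_leadingCoeff_smul f u hf)
      rw [Algebra.smul_def] at hb
      have hilt : i ≤ n := by
        by_contra hcon
        push Not at hcon
        rcases Nat.lt_or_ge (n + 1) i with h1 | h1
        · rw [coeff_eq_zero_of_natDegree_lt (by omega)] at hi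
          exact not_isUnit_zero hi
        · have : i = n + 1 := by omega
          rw [this, ← hnat] at hi
          exact hau hi
      by_cases hbu : IsUnit b
      · -- then `u⁻¹ = a / b`
        right
        obtain ⟨b', hb'⟩ := hbu.exists_left_inv
        refine ⟨a * b', ?_⟩
        have hb0 : algebraMap O L b ≠ 0 := (hbu.map (algebraMap O L)).ne_zero
        have hu0 : u ≠ 0 := by
          rintro rfl
          rw [mul_zero] at hb
          exact hb0 hb
        have h1 : algebraMap O L b' * algebraMap O L b = 1 := by
          rw [← map_mul, hb', map_one]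
        rw [map_mul]
        apply eq_inv_of_mul_eq_one_left
        rw [mul_comm (algebraMap O L a), mul_assoc, ← hb, h1]
      · set g : O[X] := C b * X ^ n + f.eraseLead with hg
        have hgdeg : g.natDegree ≤ n := by
          refine (natDegree_add_le _ _).trans (max_le ?_ ?_)
          · exact natDegree_C_mul_X_pow_le b n
          · have := eraseLead_natDegree_le f
            omega
        have hgu : aeval u g = 0 := by
          have h1 := eraseLead_add_C_mul_X_pow f
          have h2 : aeval u f = aeval u f.eraseLead + algebraMap O L a * u ^ (n + 1) := by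
            conv_lhs => rw [← h1]
            rw [map_add, map_mul, aeval_C, map_pow, aeval_X, hnat]
          rw [hf] at h2
          rw [hg, map_add, map_mul, aeval_C, map_pow, aeval_X, hb, add_comm, h2]
          ring
        refine ih g hgdeg hgu ⟨i, ?_⟩
        have hcoeff : g.coeff i = (if i = n then b else 0) + f.coeff i := by
          rw [hg, coeff_add, coeff_C_mul_X_pow, eraseLead_coeff_of_ne i (by omega)]
        rw [hcoeff]
        split_ifs with hin
        · by_contra hcon
          have h1 : b + f.coeff i ∈ nonunits O := hcon
          have h2 : -b ∈ nonunits O := by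
            show ¬ IsUnit (-b)
            rwa [IsUnit.neg_iff]
          have := IsLocalRing.nonunits_add h1 h2
          rw [add_comm, neg_add_cancel_left] at this
          exact this hi
        · rwa [zero_add]

/-- **Kaplansky's Theorem 67.** -/
theorem mem_or_inv_mem_of_unit_coeff {O L : Type*} [CommRing O] [IsLocalRing O] [Field L]
    [Algebra O L] (hint : ∀ x : L, IsIntegral O x → x ∈ (algebraMap O L).range) (u : L)
    (f : O[X]) (hf : aeval u f = 0) (hunit : ∃ i, IsUnit (f.coeff i)) :
    u ∈ (algebraMap O L).range ∨ u⁻¹ ∈ (algebraMap O L).range :=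
  mem_or_inv_mem_of_unit_coeff_aux hint u f.natDegree f le_rfl hf hunit

end Fermat.Agent.S29lib.E
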