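/-
S29lib, block E (helper8).  For a ring hom `φ : Z̄ → k` to a field of characteristic `p`
(`Z̄ = integralClosure ℤ ℂ`), the localization `O = Z̄_𝔪` at `𝔪 = ker φ` is a valuation ring
(Kaplansky's Theorem 67), with an injective map to `ℂ`, a map to `k` extending `φ`, and every
nonzero element divides a power of `p` with cofactor in the kernel of the reduction.
-/
import Fermat.Agent.S29lib.E.Kaplansky

set_option autoImplicit false

noncomputable section

namespace Fermat.Agent.S29lib.E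

open Polynomial

/-- `Z̄` -/
abbrev Zbar : Type := integralClosure ℤ ℂ

variable {k : Type*} [Field k] (φ : Zbar →+* k)

instance kerPrime : (RingHom.ker φ).IsPrime := RingHom.ker_isPrime φ

/-- `Z̄_𝔪`, `𝔪 = ker φ` -/
abbrev OLoc : Type := Localization.AtPrime (RingHom.ker φ)

lemma isUnit_coe_of_mem_primeCompl (y : (RingHom.ker φ).primeCompl) :
    IsUnit (algebraMap Zbar ℂ y) := by
  apply IsUnit.mk0
  intro h
  have h0 : (y : Zbar) = 0 := by
    apply Subtype.ext
    exact h
  exact y.2 (h0 ▸ (RingHom.ker φ).zero_mem)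

/-- the embedding `Z̄_𝔪 → ℂ` -/
def embLoc : OLoc φ →+* ℂ :=
  IsLocalization.lift (M := (RingHom.ker φ).primeCompl) (g := algebraMap Zbar ℂ)
    (isUnit_coe_of_mem_primeCompl φ)

lemma embLoc_algebraMap (x : Zbar) : embLoc φ (algebraMap Zbar (OLoc φ) x) = (x : ℂ) :=
  IsLocalization.lift_eq _ x

lemma embLoc_injective : Function.Injective (embLoc φ) := by
  rw [embLoc, IsLocalization.lift_injective_iff]
  intro x y
  constructor
  · intro h
    have : x = y :=
      IsLocalization.injective (OLoc φ) (RingHom.ker φ).primeCompl_le_nonZeroDivisors h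
    rw [this]
  · intro h
    have : x = y := Subtype.ext h
    rw [this]

lemma isUnit_of_mem_primeCompl (y : (RingHom.ker φ).primeCompl) : IsUnit (φ (y : Zbar)) := by
  apply IsUnit.mk0
  intro h
  exact y.2 ((RingHom.mem_ker).mpr h)

/-- the reduction `Z̄_𝔪 → k` -/
def resLoc : OLoc φ →+* k :=
  IsLocalization.lift (M := (RingHom.ker φ).primeCompl) (g := φ) (isUnit_of_mem_primeCompl φ)

lemma resLoc_algebraMap (x : Zbar) : resLoc φ (algebraMap Zbar (OLoc φ) x) = φ x :=
  IsLocalization.lift_eq _ x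

/-- every element of `ℂ` in the image of `Z̄_𝔪` is algebraic over `ℤ` -/
lemma isAlgebraic_embLoc (x : OLoc φ) : IsAlgebraic ℤ (embLoc φ x) := by
  obtain ⟨⟨r, s⟩, rfl⟩ := IsLocalization.mk'_surjective (RingHom.ker φ).primeCompl x
  have h1 : embLoc φ (IsLocalization.mk' (OLoc φ) r s) * ((s : Zbar) : ℂ) = (r : ℂ) := by
    rw [← embLoc_algebraMap φ (s : Zbar), ← map_mul, IsLocalization.mk'_spec, embLoc_algebraMap]
  have hs0 : ((s : Zbar) : ℂ) ≠ 0 := (isUnit_coe_of_mem_primeCompl φ s).ne_zero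
  have h2 : embLoc φ (IsLocalization.mk' (OLoc φ) r s) = (r : ℂ) * ((s : Zbar) : ℂ)⁻¹ := by
    rw [← h1, mul_assoc, mul_inv_cancel₀ hs0, mul_one]
  show IsAlgebraic ℤ (embLoc φ (IsLocalization.mk' (OLoc φ) r s))
  rw [h2]
  exact (r.2.isAlgebraic).mul (s.1.2.isAlgebraic).inv

/-- `Z̄_𝔪` is integrally closed in `ℂ` -/
lemma mem_range_embLoc_of_isIntegral (x : ℂ)
    (hx : (embLoc φ).IsIntegralElem x) : x ∈ (embLoc φ).range := by
  letI : Algebra (OLoc φ) ℂ := (embLoc φ).toAlgebra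
  haveI : IsScalarTower Zbar (OLoc φ) ℂ :=
    IsScalarTower.of_algebraMap_eq fun y => (embLoc_algebraMap φ y).symm
  obtain ⟨m, hm⟩ :=
    IsIntegral.exists_multiple_integral_of_isLocalization (RingHom.ker φ).primeCompl x hx
  have hm' : IsIntegral ℤ (m • x) := isIntegral_trans (A := Zbar) _ hm
  have hmx : m • x = ((m : Zbar) : ℂ) * x := by
    rw [Submonoid.smul_def, Algebra.smul_def]
    rfl
  let y : Zbar := ⟨m • x, hm'⟩
  refine ⟨IsLocalization.mk' (OLoc φ) y m, ?_⟩
  have h1 : embLoc φ (IsLocalization.mk' (OLoc φ) y m) * ((m : Zbar) : ℂ) = (y : ℂ) := by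
    rw [← embLoc_algebraMap φ (m : Zbar), ← map_mul, IsLocalization.mk'_spec, embLoc_algebraMap]
  have hs0 : ((m : Zbar) : ℂ) ≠ 0 := (isUnit_coe_of_mem_primeCompl φ m).ne_zero
  apply mul_right_cancel₀ hs0
  rw [h1]
  show m • x = x * _
  rw [hmx, mul_comm]

variable {p : ℕ} (hp : p.Prime) [hk : CharP k p]

include hk in
lemma natCast_mem_ker : (p : Zbar) ∈ RingHom.ker φ := by
  rw [RingHom.mem_ker, map_natCast]
  exact CharP.cast_eq_zero k p

include hk in
lemma natCast_mem_maximalIdeal : (p : OLoc φ) ∈ IsLocalRing.maximalIdeal (OLoc φ) := by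
  have : (p : OLoc φ) = algebraMap Zbar (OLoc φ) (p : Zbar) := by simp
  rw [this, IsLocalization.AtPrime.to_map_mem_maximal_iff (OLoc φ) (RingHom.ker φ)]
  exact natCast_mem_ker φ

include hk in
lemma resLoc_natCast : resLoc φ (p : OLoc φ) = 0 := by
  rw [map_natCast]
  exact CharP.cast_eq_zero k p

include hp hk in
/-- integers prime to `p` are units of `Z̄_𝔪` -/
lemma isUnit_intCast_of_not_dvd {c : ℤ} (hc : ¬ (p : ℤ) ∣ c) : IsUnit (c : OLoc φ) := by
  have hpp : Prime (p : ℤ) := Nat.prime_iff_prime_int.mp hp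
  obtain ⟨x, y, hxy⟩ := (hpp.coprime_iff_not_dvd).mpr hc
  have h1 : (y : OLoc φ) * (c : OLoc φ) = 1 - (x : OLoc φ) * (p : OLoc φ) := by
    have := congrArg (Int.cast : ℤ → OLoc φ) hxy
    push_cast at this
    rw [← this]
    ring
  have h2 : IsUnit ((y : OLoc φ) * (c : OLoc φ)) := by
    rw [h1]
    apply IsLocalRing.isUnit_one_sub_self_of_mem_nonunits
    have := Ideal.mul_mem_left _ (x : OLoc φ) (natCast_mem_maximalIdeal (p := p) φ)
    exact this
  exact isUnit_of_mul_isUnit_right h2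

include hp hk in
/-- `Z̄_𝔪` is a valuation ring -/
theorem valuationRing_OLoc : ValuationRing (OLoc φ) := by
  letI : Algebra (OLoc φ) ℂ := (embLoc φ).toAlgebra
  have halg : ∀ x, algebraMap (OLoc φ) ℂ x = embLoc φ x := fun _ => rfl
  suffices PreValuationRing (OLoc φ) from .mk
  refine ⟨fun a b => ?_⟩
  by_cases hb : b = 0
  · exact ⟨0, Or.inl (by rw [hb, mul_zero])⟩
  by_cases ha : a = 0
  · exact ⟨0, Or.inr (by rw [ha, mul_zero])⟩
  set u : ℂ := embLoc φ a / embLoc φ b with hu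
  have hb0 : embLoc φ b ≠ 0 := (map_ne_zero_iff _ (embLoc_injective φ)).mpr hb
  have ha0 : embLoc φ a ≠ 0 := (map_ne_zero_iff _ (embLoc_injective φ)).mpr ha
  have hualg : IsAlgebraic ℤ u := by
    rw [hu, div_eq_mul_inv]
    exact (isAlgebraic_embLoc φ a).mul (isAlgebraic_embLoc φ b).inv
  obtain ⟨q, hq0, hq⟩ := hualg
  -- primitive part
  have hq' : aeval u q.primPart = 0 := by
    have h1 := q.eq_C_content_mul_primPart
    have h2 : aeval u q = algebraMap ℤ ℂ q.content * aeval u q.primPart := by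
      conv_lhs => rw [h1]
      rw [map_mul, aeval_C]
    rw [hq] at h2
    have hc0 : algebraMap ℤ ℂ q.content ≠ 0 := by
      rw [Ne, map_eq_zero_iff _ (algebraMap ℤ ℂ).injective_int]
      exact content_eq_zero_iff.not.mpr hq0
    exact (mul_eq_zero.mp h2.symm).resolve_left hc0
  obtain ⟨i, hi⟩ : ∃ i, ¬ (p : ℤ) ∣ q.primPart.coeff i := by
    by_contra hcon
    push Not at hcon
    have := (C_dvd_iff_dvd_coeff (p : ℤ) q.primPart).mpr hcon
    have hunit := q.isPrimitive_primPart (p : ℤ) this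
    exact (Nat.prime_iff_prime_int.mp hp).not_isUnit hunit
  set f : (OLoc φ)[X] := q.primPart.map (Int.castRingHom (OLoc φ)) with hf
  have hfu : aeval u f = 0 := by
    rw [hf, aeval_def, eval₂_map, ← hq', aeval_def]
    congr 1
    exact RingHom.ext_int _ _
  have hfi : IsUnit (f.coeff i) := by
    rw [hf, coeff_map, eq_intCast]
    exact isUnit_intCast_of_not_dvd φ hp hi
  have hint : ∀ x : ℂ, IsIntegral (OLoc φ) x → x ∈ (algebraMap (OLoc φ) ℂ).range :=
    fun x hx => mem_range_embLoc_of_isIntegral φ x hx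
  rcases mem_or_inv_mem_of_unit_coeff hint u f hfu ⟨i, hfi⟩ with ⟨c, hc⟩ | ⟨c, hc⟩
  · refine ⟨c, Or.inr ?_⟩
    apply embLoc_injective φ
    rw [halg, hu, eq_div_iff hb0] at hc
    rw [map_mul, ← hc, mul_comm]
  · refine ⟨c, Or.inl ?_⟩
    apply embLoc_injective φ
    rw [halg, hu, inv_div, eq_div_iff ha0] at hc
    rw [map_mul, ← hc, mul_comm]

include hp hk in
/-- every nonzero element of `Z̄_𝔪` divides a power of `p`, with a cofactor in the kernel of
the reduction -/
theorem exists_pow_eq_mul (d : OLoc φ) (hd : d ≠ 0) :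
    ∃ n : ℕ, ∃ m : OLoc φ, resLoc φ m = 0 ∧ (p : OLoc φ) ^ n = d * m := by
  have hd0 : embLoc φ d ≠ 0 := (map_ne_zero_iff _ (embLoc_injective φ)).mpr hd
  obtain ⟨q, hq0, hq⟩ := (isAlgebraic_embLoc φ d).exists_nonzero_coeff_and_aeval_eq_zero
    (mem_nonZeroDivisors_of_ne_zero hd0)
  have hq' : aeval d q = 0 := by
    apply embLoc_injective φ
    rw [map_zero, ← hq, aeval_def, aeval_def, hom_eval₂]
    congr 1
    exact RingHom.ext_int _ _
  -- `d` divides the constant coefficient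
  have hdvd : d ∣ ((q.coeff 0 : ℤ) : OLoc φ) := by
    have h1 := divX_mul_X_add q
    have h2 : aeval d q = aeval d q.divX * d + ((q.coeff 0 : ℤ) : OLoc φ) := by
      conv_lhs => rw [← h1]
      rw [map_add, map_mul, aeval_X, aeval_C, eq_intCast]
    rw [hq'] at h2
    refine ⟨- aeval d q.divX, ?_⟩
    linear_combination (-1 : OLoc φ) * h2
  -- split off the power of `p`
  have hfin : FiniteMultiplicity (p : ℤ) (q.coeff 0) := by
    rw [Int.finiteMultiplicity_iff]
    exact ⟨by simpa using hp.ne_one, hq0⟩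
  obtain ⟨c, hc, hpc⟩ := hfin.exists_eq_pow_mul_and_not_dvd
  set j := multiplicity (p : ℤ) (q.coeff 0)
  have hcu : IsUnit (c : OLoc φ) := isUnit_intCast_of_not_dvd φ hp hpc
  obtain ⟨c', hc'⟩ := hcu.exists_right_inv
  obtain ⟨e, he⟩ := hdvd
  refine ⟨j + 1, e * c' * (p : OLoc φ), ?_, ?_⟩
  · rw [map_mul, resLoc_natCast φ, mul_zero]
  · have h3 : ((q.coeff 0 : ℤ) : OLoc φ) = (p : OLoc φ) ^ j * (c : OLoc φ) := by
      rw [hc]
      push_cast
      rfl
    have h4 : (p : OLoc φ) ^ j = d * e * c' := by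
      rw [← he, h3, mul_assoc, hc', mul_one]
    rw [pow_succ, h4]
    ring

end Fermat.Agent.S29lib.E
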