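/-
S29lib, block E: the assembly `E.eStatement : Z.EStatement` (helper4, on top of helper8's
echelon / kernel-lattice / `Z̄_𝔪` files and the Galois matrices `GalAct`, `Package`).

`O = Z̄_𝔪` (a valuation ring), `A ℓ = t_ℓ - a_ℓ` over `O`, `Λ = ⋂ ker A ℓ ⊆ O^r` (saturated, with an
echelon basis of 2 vectors since `Λ ⊗ ℂ` is the 2-dimensional eigenspace), `W = ` the `k₀`-span of
the reduction of `Λ`.  `W` is stable under the Galois matrices mod `p`: lift the Galois matrix to
level `p^j`, `j` large; it commutes with the `t_ℓ` modulo `p^j`, so it maps `Λ` into the vectors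
killed by the `A ℓ` modulo `p^j`, which are congruent to vectors of `Λ` modulo `𝔪`.
-/
import Mathlib
import Fermat.Agent.S29lib.Z.Assemble
import Fermat.Agent.S29lib.E.KerCons
import Fermat.Agent.S29lib.E.ZbarLoc
import Fermat.Agent.S29lib.E.GalActLe
import Fermat.Agent.S29lib.E.Package

set_option autoImplicit false

noncomputable section

namespace Fermat.Agent.S29lib.E

open ModularCurve Matrix

/-- `G_ℚ` -/
local notation "GQ" => (AlgebraicClosure ℚ ≃ₐ[ℚ] AlgebraicClosure ℚ)

/-! ### Generic matrix lemmas -/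

section Generic

/-- integer matrices commuting modulo `q`: the lift of `G` maps the kernel of `T - a` into the
vectors killed by `T - a` modulo `q`. -/
theorem dvd_mulVec_of_commute_mod {O : Type*} [CommRing O] {r : ℕ} (q : ℕ)
    (T G : Matrix (Fin r) (Fin r) ℤ) (a : O)
    (hcomm : G.map (Int.cast : ℤ → ZMod q) * T.map (Int.cast : ℤ → ZMod q) =
      T.map (Int.cast : ℤ → ZMod q) * G.map (Int.cast : ℤ → ZMod q))
    (x : Fin r → O) (hx : (T.map (Int.cast : ℤ → O) - a • 1) *ᵥ x = 0) (b : Fin r) :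
    (q : O) ∣ ((T.map (Int.cast : ℤ → O) - a • 1) *ᵥ (G.map (Int.cast : ℤ → O) *ᵥ x)) b := by
  have hD : ∀ i j, (q : ℤ) ∣ (T * G - G * T) i j := by
    intro i j
    rw [← CharP.intCast_eq_zero_iff (ZMod q) q]
    have h := congrFun (congrFun hcomm i) j
    simp only [Matrix.mul_apply, Matrix.map_apply] at h
    simp only [Matrix.sub_apply, Matrix.mul_apply]
    push_cast
    rw [h, sub_self]
  have hAM : (T.map (Int.cast : ℤ → O) - a • 1) * G.map (Int.cast : ℤ → O) =
      G.map (Int.cast : ℤ → O) * (T.map (Int.cast : ℤ → O) - a • 1) +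
        (T * G - G * T).map (Int.cast : ℤ → O) := by
    have h1 : (T * G - G * T).map (Int.cast : ℤ → O) =
        T.map (Int.cast : ℤ → O) * G.map (Int.cast : ℤ → O) -
          G.map (Int.cast : ℤ → O) * T.map (Int.cast : ℤ → O) := by
      ext i j
      simp [Matrix.mul_apply, Matrix.map_apply, Matrix.sub_apply]
    rw [h1, Matrix.sub_mul, Matrix.mul_sub, Matrix.smul_mul, Matrix.mul_smul, Matrix.one_mul,
      Matrix.mul_one]
    abel
  rw [Matrix.mulVec_mulVec, hAM, Matrix.add_mulVec, ← Matrix.mulVec_mulVec, hx,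
    Matrix.mulVec_zero, zero_add]
  choose D' hD' using hD
  refine ⟨∑ c, (D' b c : O) * x c, ?_⟩
  rw [Matrix.mulVec, dotProduct, Finset.mul_sum]
  refine Finset.sum_congr rfl fun c _ => ?_
  rw [Matrix.map_apply, hD' b c]
  push_cast
  ring

/-- the canonical map `ℤ/p^1 → k` for a field of characteristic `p`. -/
def iotaK (p : ℕ) (k : Type*) [Field k] [CharP k p] : ZMod (p ^ 1) →+* k :=
  haveI : CharP k (p ^ 1) := by rw [pow_one]; infer_instance
  ZMod.castHom (dvd_refl _) k

end Generic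

/-! ### The eigen-lattice over `Z̄_𝔪` -/

section Lattice

variable {N p : ℕ} [NeZero N] (C : ComparisonData N p) {k : Type} [Field k]
  (φ : Zbar →+* k) (a : Nat.Primes → Zbar)

/-- the matrices `t_ℓ - a_ℓ` over `O = Z̄_𝔪`. -/
def heckeMat (ℓ : Nat.Primes) : Matrix (Fin C.r) (Fin C.r) (OLoc φ) :=
  (C.t ℓ).map (Int.cast : ℤ → OLoc φ) - algebraMap Zbar (OLoc φ) (a ℓ) • 1

lemma heckeMat_map_emb (ℓ : Nat.Primes) :
    (heckeMat C φ a ℓ).map (embLoc φ) =
      (C.t ℓ).map (Int.cast : ℤ → ℂ) - ((a ℓ : Zbar) : ℂ) • 1 := by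
  ext i j
  by_cases h : i = j
  · simp [heckeMat, h]
    rw [← Algebra.algebraMap_eq_smul_one, embLoc_algebraMap]
  · simp [heckeMat, h]

lemma heckeMat_map_res (ℓ : Nat.Primes) :
    (heckeMat C φ a ℓ).map (resLoc φ) =
      (C.t ℓ).map (Int.cast : ℤ → k) - φ (a ℓ) • 1 := by
  ext i j
  by_cases h : i = j
  · simp [heckeMat, h]
    rw [← Algebra.algebraMap_eq_smul_one, resLoc_algebraMap]
  · simp [heckeMat, h]

/-- the complex eigenspace, in `mulVecLin` form. -/
lemma iInf_ker_eq :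
    (⨅ ℓ : Nat.Primes, LinearMap.ker ((heckeMat C φ a ℓ).map (embLoc φ)).mulVecLin) =
      ⨅ ℓ : Nat.Primes, LinearMap.ker
        (Matrix.toLin' ((C.t ℓ).map (Int.cast : ℤ → ℂ)) - ((a ℓ : Zbar) : ℂ) • 1) := by
  refine iInf_congr fun ℓ => ?_
  rw [heckeMat_map_emb, ← Matrix.toLin'_apply', map_sub, map_smul, Matrix.toLin'_one]
  rfl

end Lattice

/-! ### The statement of block E -/

theorem eStatement : Z.EStatement := by
  intro N _ p hp C g I hL 𝔪 _ hpm
  classical
  haveI hchar : CharP (integralClosure ℤ ℂ ⧸ 𝔪) p := charP_quot 𝔪 p hp hpm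
  set k := integralClosure ℤ ℂ ⧸ 𝔪 with hk
  set φ : Zbar →+* k := Ideal.Quotient.mk 𝔪 with hφ
  haveI : ValuationRing (OLoc φ) := valuationRing_OLoc φ hp
  set A : Nat.Primes → Matrix (Fin C.r) (Fin C.r) (OLoc φ) := heckeMat C φ I.a with hA
  -- echelon basis of the eigen-lattice
  obtain ⟨S, v, hSv⟩ := exists_echelonBasis (kerO A) (isSat_kerO A)
  have hcard : S.card = 2 := by
    rw [← finrank_kerL A (embLoc φ) (embLoc_injective φ) hSv, hA, iInf_ker_eq]
    exact I.finrank_eigen
  set W : Submodule k (Fin C.r → k) := redSpan (resLoc φ) (kerO A) with hW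
  have hW2 : Module.finrank k W = 2 := by
    rw [hW, finrank_redSpan (resLoc φ) hSv, hcard]
  -- eigen property
  have hWeig : ∀ ℓ : Nat.Primes, ∀ w ∈ W,
      (C.t ℓ).map (Int.cast : ℤ → k) *ᵥ w = φ (I.a ℓ) • w := by
    intro ℓ
    have hle : W ≤ LinearMap.ker ((A ℓ).map (resLoc φ)).mulVecLin := by
      rw [hW, redSpan, Submodule.span_le]
      rintro _ ⟨x, hx, rfl⟩
      rw [SetLike.mem_coe, LinearMap.mem_ker, Matrix.mulVecLin_apply]
      exact map_mem_ker A (resLoc φ) hx ℓ
    intro w hw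
    have h1 := hle hw
    rw [LinearMap.mem_ker, Matrix.mulVecLin_apply, hA, heckeMat_map_res, Matrix.sub_mulVec,
      Matrix.smul_mulVec, Matrix.one_mulVec, sub_eq_zero] at h1
    exact h1
  -- Galois stability
  set ι : ZMod (p ^ 1) →+* k := iotaK p k with hι
  obtain ⟨n, hn⟩ := approx A (resLoc φ) hSv (p : OLoc φ) (exists_pow_eq_mul φ hp)
  have hWstab : ∀ σ : GQ, ∀ w ∈ W, galK C ι σ *ᵥ w ∈ W := by
    intro σ
    have hle : W ≤ W.comap (galK C ι σ).mulVecLin := by
      rw [hW, redSpan, Submodule.span_le]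
      rintro _ ⟨x, hx, rfl⟩
      rw [SetLike.mem_coe, Submodule.mem_comap, Matrix.mulVecLin_apply]
      -- lift to level `j = n + 1`
      set j := n + 1 with hj
      set Gt : Matrix (Fin C.r) (Fin C.r) ℤ := galLift C j σ with hGt
      set x' : Fin C.r → OLoc φ := Gt.map (Int.cast : ℤ → OLoc φ) *ᵥ x with hx'
      have hdiv : ∀ (ℓ : Nat.Primes) (b : Fin C.r), (p : OLoc φ) ^ n ∣ (A ℓ *ᵥ x') b := by
        intro ℓ b
        have hcomm : Gt.map (Int.cast : ℤ → ZMod (p ^ j)) *
            (C.t ℓ).map (Int.cast : ℤ → ZMod (p ^ j)) =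
            (C.t ℓ).map (Int.cast : ℤ → ZMod (p ^ j)) * Gt.map (Int.cast : ℤ → ZMod (p ^ j)) := by
          rw [hGt, galLift_cast]
          exact galMat_commute C j σ ℓ
        have h1 := dvd_mulVec_of_commute_mod (p ^ j) (C.t ℓ) Gt
          (algebraMap Zbar (OLoc φ) (I.a ℓ)) hcomm x ((mem_kerO A).mp hx ℓ) b
        have h2 : (p : OLoc φ) ^ n ∣ ((p ^ j : ℕ) : OLoc φ) := by
          rw [Nat.cast_pow]
          exact pow_dvd_pow _ (Nat.le_succ n)
        exact h2.trans h1
      obtain ⟨e, he, hres⟩ := hn x' hdiv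
      -- the reduction of `x'`
      have hred : (fun b => resLoc φ (x' b)) = galK C ι σ *ᵥ (fun b => resLoc φ (x b)) := by
        have hmat : (Gt.map (Int.cast : ℤ → OLoc φ)).map (resLoc φ) = galK C ι σ := by
          rw [galK_apply, ← galMat_map_comp C ι j (Nat.le_add_left 1 n) σ, ← galLift_cast C j σ,
            Matrix.map_map, Matrix.map_map]
          ext i l
          simp [Matrix.map_apply, hGt]
        funext b
        rw [hx', ← hmat]
        exact RingHom.map_mulVec (resLoc φ) _ x b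
      rw [← hred]
      have : (fun b => resLoc φ (x' b)) = fun b => resLoc φ (e b) := funext hres
      rw [this]
      exact red_mem_redSpan (resLoc φ) he
    intro w hw
    exact hle hw
  exact ⟨residualPieceOfStable C ι hL (fun ℓ => Ideal.Quotient.mk 𝔪 (I.a ℓ)) W hW2 hWeig hWstab⟩

end Fermat.Agent.S29lib.E
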