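/-
S29lib, block E (helper8).  Abstract "torsion system": a compatible family of groups
`T k ≃ (ℤ/p^k)^r` with an action of a monoid `G` and Hecke operators given by integer matrices.
Transport of the action to matrices over `ℤ/p^k`, and their properties (multiplicativity,
commutation with the Hecke matrices, compatibility in `k`, Frobenius relation).
-/
import Mathlib

set_option autoImplicit false

noncomputable section

namespace Fermat.Agent.S29lib.E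

open Matrix

/-- an abstract torsion system -/
structure TorsionSystem (G : Type) [Monoid G] (I : Type) (p r : ℕ) : Type 1 where
  /-- the torsion groups -/
  T : ℕ → Type
  [instT : ∀ k, AddCommGroup (T k)]
  /-- the comparison -/
  κ : ∀ k, T k ≃+ (Fin r → ZMod (p ^ k))
  /-- the action -/
  act : ∀ k, G → (T k →+ T k)
  act_one : ∀ k x, act k 1 x = x
  act_mul : ∀ k σ τ x, act k (σ * τ) x = act k σ (act k τ x)
  /-- multiplication by `p` -/
  red : ∀ k, T (k + 1) → T k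
  red_act : ∀ k σ x, red k (act (k + 1) σ x) = act k σ (red k x)
  κ_red : ∀ k x, κ k (red k x) =
    fun i => ZMod.castHom (pow_dvd_pow p (Nat.le_succ k)) (ZMod (p ^ k)) (κ (k + 1) x i)
  /-- the integer Hecke matrices -/
  t : I → Matrix (Fin r) (Fin r) ℤ
  /-- the Hecke operators on torsion -/
  tj : ∀ k, I → T k → T k
  κ_tj : ∀ k i x, κ k (tj k i x) = ((t i).map (Int.cast : ℤ → ZMod (p ^ k))).mulVec (κ k x)
  tj_act : ∀ k i σ x, tj k i (act k σ x) = act k σ (tj k i x)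

attribute [instance] TorsionSystem.instT

namespace TorsionSystem

variable {G : Type} [Monoid G] {I : Type} {p r : ℕ} (𝒯 : TorsionSystem G I p r)

/-- the Hecke matrix modulo `p^k` -/
def tMat (k : ℕ) (i : I) : Matrix (Fin r) (Fin r) (ZMod (p ^ k)) :=
  (𝒯.t i).map (Int.cast : ℤ → ZMod (p ^ k))

/-- the transported action, as a linear map -/
def galLin (k : ℕ) (σ : G) : (Fin r → ZMod (p ^ k)) →ₗ[ZMod (p ^ k)] (Fin r → ZMod (p ^ k)) :=
  ((𝒯.κ k).toAddMonoidHom.comp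
    ((𝒯.act k σ).comp (𝒯.κ k).symm.toAddMonoidHom)).toZModLinearMap (p ^ k)

/-- the matrix of the action on `T k ≃ (ℤ/p^k)^r` -/
def galMat (k : ℕ) (σ : G) : Matrix (Fin r) (Fin r) (ZMod (p ^ k)) :=
  LinearMap.toMatrix' (𝒯.galLin k σ)

lemma galMat_mulVec (k : ℕ) (σ : G) (v : Fin r → ZMod (p ^ k)) :
    (𝒯.galMat k σ).mulVec v = 𝒯.κ k (𝒯.act k σ ((𝒯.κ k).symm v)) := by
  rw [← Matrix.toLin'_apply, galMat, Matrix.toLin'_toMatrix']
  rfl

lemma galMat_mulVec_κ (k : ℕ) (σ : G) (x : 𝒯.T k) :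
    (𝒯.galMat k σ).mulVec (𝒯.κ k x) = 𝒯.κ k (𝒯.act k σ x) := by
  rw [galMat_mulVec, AddEquiv.symm_apply_apply]

lemma mat_ext_κ {k : ℕ} {M M' : Matrix (Fin r) (Fin r) (ZMod (p ^ k))}
    (h : ∀ x : 𝒯.T k, M.mulVec (𝒯.κ k x) = M'.mulVec (𝒯.κ k x)) : M = M' := by
  apply Matrix.toLin'.injective
  apply LinearMap.ext
  intro v
  obtain ⟨x, rfl⟩ := (𝒯.κ k).surjective v
  rw [Matrix.toLin'_apply, Matrix.toLin'_apply]
  exact h x

lemma galMat_one (k : ℕ) : 𝒯.galMat k (1 : G) = 1 := by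
  apply 𝒯.mat_ext_κ
  intro x
  rw [galMat_mulVec_κ, 𝒯.act_one, Matrix.one_mulVec]

lemma galMat_mul (k : ℕ) (σ τ : G) : 𝒯.galMat k (σ * τ) = 𝒯.galMat k σ * 𝒯.galMat k τ := by
  apply 𝒯.mat_ext_κ
  intro x
  rw [galMat_mulVec_κ, ← Matrix.mulVec_mulVec, galMat_mulVec_κ, galMat_mulVec_κ, 𝒯.act_mul]

lemma κ_tj' (k : ℕ) (i : I) (x : 𝒯.T k) :
    𝒯.κ k (𝒯.tj k i x) = (𝒯.tMat k i).mulVec (𝒯.κ k x) := 𝒯.κ_tj k i x

lemma galMat_comm_tMat (k : ℕ) (σ : G) (i : I) :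
    𝒯.galMat k σ * 𝒯.tMat k i = 𝒯.tMat k i * 𝒯.galMat k σ := by
  apply 𝒯.mat_ext_κ
  intro x
  rw [← Matrix.mulVec_mulVec, ← Matrix.mulVec_mulVec, ← κ_tj', galMat_mulVec_κ,
    galMat_mulVec_κ, ← κ_tj', 𝒯.tj_act]

lemma galMat_eq_one_of_fix (k : ℕ) (σ : G) (h : ∀ x : 𝒯.T k, 𝒯.act k σ x = x) :
    𝒯.galMat k σ = 1 := by
  apply 𝒯.mat_ext_κ
  intro x
  rw [galMat_mulVec_κ, Matrix.one_mulVec, h x]

/-- compatibility of the matrices in `k` -/
lemma galMat_compat (k : ℕ) (σ : G) :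
    (𝒯.galMat (k + 1) σ).map (ZMod.castHom (pow_dvd_pow p (Nat.le_succ k)) (ZMod (p ^ k))) =
      𝒯.galMat k σ := by
  set c := ZMod.castHom (pow_dvd_pow p (Nat.le_succ k)) (ZMod (p ^ k)) with hc
  have hκ : ∀ x : 𝒯.T (k + 1), 𝒯.κ k (𝒯.red k x) = fun i => c (𝒯.κ (k + 1) x i) :=
    fun x => 𝒯.κ_red k x
  have key : ∀ v : Fin r → ZMod (p ^ (k + 1)),
      ((𝒯.galMat (k + 1) σ).map c).mulVec (fun i => c (v i)) =
        (𝒯.galMat k σ).mulVec (fun i => c (v i)) := by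
    intro v
    obtain ⟨x, rfl⟩ := (𝒯.κ (k + 1)).surjective v
    have h1 : (𝒯.galMat k σ).mulVec (fun i => c (𝒯.κ (k + 1) x i)) =
        fun i => c ((𝒯.galMat (k + 1) σ).mulVec (𝒯.κ (k + 1) x) i) := by
      rw [← hκ x, 𝒯.galMat_mulVec_κ k σ (𝒯.red k x), ← 𝒯.red_act,
        hκ (𝒯.act (k + 1) σ x), ← 𝒯.galMat_mulVec_κ (k + 1) σ x]
    rw [h1]
    funext i
    exact (RingHom.map_mulVec c (𝒯.galMat (k + 1) σ) (𝒯.κ (k + 1) x) i).symm
  ext i j
  have h1 := congrFun (key (Pi.single j 1)) i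
  have hsingle : (fun i => c ((Pi.single j 1 : Fin r → ZMod (p ^ (k + 1))) i)) =
      (Pi.single j 1 : Fin r → ZMod (p ^ k)) := by
    funext i
    by_cases hij : i = j
    · subst hij
      simp
    · simp [hij]
  rw [hsingle, Matrix.mulVec_single_one, Matrix.mulVec_single_one] at h1
  exact h1

/-- the Frobenius relation for the matrices -/
lemma galMat_frob (k : ℕ) (σ : G) (i : I) (n : ℕ)
    (h : ∀ x : 𝒯.T k, 𝒯.act k σ (𝒯.act k σ x) - 𝒯.tj k i (𝒯.act k σ x) + n • x = 0) :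
    𝒯.galMat k σ * 𝒯.galMat k σ - 𝒯.tMat k i * 𝒯.galMat k σ
      + (n : ZMod (p ^ k)) • (1 : Matrix (Fin r) (Fin r) (ZMod (p ^ k))) = 0 := by
  apply 𝒯.mat_ext_κ
  intro x
  rw [Matrix.add_mulVec, Matrix.sub_mulVec, ← Matrix.mulVec_mulVec, ← Matrix.mulVec_mulVec,
    𝒯.galMat_mulVec_κ k σ x, 𝒯.galMat_mulVec_κ k σ (𝒯.act k σ x), ← 𝒯.κ_tj' k i (𝒯.act k σ x),
    Matrix.smul_mulVec, Matrix.one_mulVec, Nat.cast_smul_eq_nsmul, ← map_nsmul, ← map_sub,
    ← map_add, h x, map_zero, Matrix.zero_mulVec]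

/-! ### integer lifts -/

/-- an integer lift of the matrix of the action -/
def galMatZ (k : ℕ) (σ : G) : Matrix (Fin r) (Fin r) ℤ :=
  (𝒯.galMat k σ).map (ZMod.cast : ZMod (p ^ k) → ℤ)

lemma galMatZ_map_cast (k : ℕ) (σ : G) :
    (𝒯.galMatZ k σ).map (Int.cast : ℤ → ZMod (p ^ k)) = 𝒯.galMat k σ := by
  ext i j
  simp [galMatZ]

/-- the integer lifts commute with the Hecke matrices modulo `p^k` -/
lemma dvd_comm_galMatZ (k : ℕ) (σ : G) (i : I) (j j' : Fin r) :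
    ((p ^ k : ℕ) : ℤ) ∣ (𝒯.t i * 𝒯.galMatZ k σ - 𝒯.galMatZ k σ * 𝒯.t i) j j' := by
  rw [← ZMod.intCast_zmod_eq_zero_iff_dvd]
  have h1 : ((𝒯.t i * 𝒯.galMatZ k σ - 𝒯.galMatZ k σ * 𝒯.t i).map
      (Int.cast : ℤ → ZMod (p ^ k))) = 0 := by
    have hmap : ∀ M M' : Matrix (Fin r) (Fin r) ℤ,
        (M * M').map (Int.cast : ℤ → ZMod (p ^ k)) =
          M.map (Int.cast : ℤ → ZMod (p ^ k)) * M'.map (Int.cast : ℤ → ZMod (p ^ k)) :=
      fun M M' => Matrix.map_mul (f := Int.castRingHom (ZMod (p ^ k)))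
    have hsub : ∀ M M' : Matrix (Fin r) (Fin r) ℤ,
        (M - M').map (Int.cast : ℤ → ZMod (p ^ k)) =
          M.map (Int.cast : ℤ → ZMod (p ^ k)) - M'.map (Int.cast : ℤ → ZMod (p ^ k)) :=
      fun M M' => Matrix.map_sub _ (map_sub (Int.castRingHom (ZMod (p ^ k)))) M M'
    rw [hsub, hmap, hmap, galMatZ_map_cast]
    show 𝒯.tMat k i * 𝒯.galMat k σ - 𝒯.galMat k σ * 𝒯.tMat k i = 0
    rw [𝒯.galMat_comm_tMat, sub_self]
  have := congrFun (congrFun h1 j) j'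
  simpa using this

/-! ### the matrices over a field of characteristic `p` -/

variable (K : Type) [Field K] [CharP K p]

/-- the matrix of the action on `T (k+1)`, reduced to a field `K` of characteristic `p` -/
def galMatK (k : ℕ) (σ : G) : Matrix (Fin r) (Fin r) K :=
  (𝒯.galMat (k + 1) σ).map (ZMod.castHom (dvd_pow_self p k.succ_ne_zero) K)

lemma galMatK_succ (k : ℕ) (σ : G) : 𝒯.galMatK K (k + 1) σ = 𝒯.galMatK K k σ := by
  rw [galMatK, galMatK, ← 𝒯.galMat_compat (k + 1) σ, Matrix.map_map]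
  congr 1
  have := RingHom.ext_zmod
    ((ZMod.castHom (dvd_pow_self p k.succ_ne_zero) K).comp
      (ZMod.castHom (pow_dvd_pow p (Nat.le_succ (k + 1))) (ZMod (p ^ (k + 1)))))
    (ZMod.castHom (dvd_pow_self p (k + 1).succ_ne_zero) K)
  exact (congrArg DFunLike.coe this).symm

lemma galMatK_eq (k : ℕ) (σ : G) : 𝒯.galMatK K k σ = 𝒯.galMatK K 0 σ := by
  induction k with
  | zero => rfl
  | succ k ih => rw [galMatK_succ, ih]

lemma galMatZ_map_castK (k : ℕ) (σ : G) :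
    (𝒯.galMatZ (k + 1) σ).map (Int.cast : ℤ → K) = 𝒯.galMatK K k σ := by
  ext i j
  simp only [galMatZ, galMatK, Matrix.map_apply, ZMod.castHom_apply]
  exact ZMod.intCast_cast _

lemma galMatK_one (k : ℕ) : 𝒯.galMatK K k (1 : G) = 1 := by
  rw [galMatK, galMat_one]
  exact Matrix.map_one _ (map_zero _) (map_one _)

lemma galMatK_mul (k : ℕ) (σ τ : G) :
    𝒯.galMatK K k (σ * τ) = 𝒯.galMatK K k σ * 𝒯.galMatK K k τ := by
  rw [galMatK, galMat_mul]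
  exact Matrix.map_mul

lemma galMatK_eq_one_of_fix (k : ℕ) (σ : G) (h : ∀ x : 𝒯.T (k + 1), 𝒯.act (k + 1) σ x = x) :
    𝒯.galMatK K k σ = 1 := by
  rw [galMatK, 𝒯.galMat_eq_one_of_fix (k + 1) σ h]
  exact Matrix.map_one _ (map_zero _) (map_one _)

/-- the Hecke matrix over `K` -/
def tMatK (i : I) : Matrix (Fin r) (Fin r) K := (𝒯.t i).map (Int.cast : ℤ → K)

lemma tMat_map_castHom (k : ℕ) (i : I) :
    (𝒯.tMat (k + 1) i).map (ZMod.castHom (dvd_pow_self p k.succ_ne_zero) K) = 𝒯.tMatK K i := by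
  ext j j'
  simp [tMat, tMatK]

/-- the Frobenius relation over `K` -/
lemma galMatK_frob (k : ℕ) (σ : G) (i : I) (n : ℕ)
    (h : ∀ x : 𝒯.T (k + 1),
      𝒯.act (k + 1) σ (𝒯.act (k + 1) σ x) - 𝒯.tj (k + 1) i (𝒯.act (k + 1) σ x) + n • x = 0) :
    𝒯.galMatK K k σ * 𝒯.galMatK K k σ - 𝒯.tMatK K i * 𝒯.galMatK K k σ
      + (n : K) • (1 : Matrix (Fin r) (Fin r) K) = 0 := by
  have h1 := 𝒯.galMat_frob (k + 1) σ i n h
  set c := ZMod.castHom (dvd_pow_self p k.succ_ne_zero) K with hc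
  have h2 : (𝒯.galMat (k + 1) σ * 𝒯.galMat (k + 1) σ - 𝒯.tMat (k + 1) i * 𝒯.galMat (k + 1) σ
      + (n : ZMod (p ^ (k + 1))) • (1 : Matrix (Fin r) (Fin r) (ZMod (p ^ (k + 1))))).map c = 0 := by
    rw [h1]
    exact Matrix.map_zero _ (map_zero c)
  rw [Matrix.map_add _ (map_add c), Matrix.map_sub _ (map_sub c), Matrix.map_mul, Matrix.map_mul,
    tMat_map_castHom] at h2
  have h3 : ((n : ZMod (p ^ (k + 1))) •
      (1 : Matrix (Fin r) (Fin r) (ZMod (p ^ (k + 1))))).map c = (n : K) • 1 := by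
    ext j j'
    simp [Matrix.one_apply, apply_ite c]
  rw [h3] at h2
  exact h2

end TorsionSystem

end Fermat.Agent.S29lib.E
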