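/-
S29lib, block E (helper8).  The torsion system (`GalMat.lean`) attached to a `ComparisonData`:
`T k = J₀(N)[p^k]` with its Galois action, the Kummer comparison `κ`, the Hecke operators.
-/
import Fermat.Agent.S29lib.Interface.Basic
import Fermat.Agent.S29lib.E.GalMat

set_option autoImplicit false

noncomputable section

namespace Fermat.Agent.S29lib.E

open ModularCurve Matrix

/-- `ℚ̄` -/
local notation "Qb" => AlgebraicClosure ℚ
/-- `G_ℚ` -/
local notation "GQ" => (AlgebraicClosure ℚ ≃ₐ[ℚ] AlgebraicClosure ℚ)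

variable {N p : ℕ} [NeZero N]

/-- the Galois action on the torsion, as an additive map -/
def galTors (n : ℕ) (σ : GQ) : Tors N n →+ Tors N n where
  toFun x := ⟨σ • (x : JZero N), smul_mem_Tors σ x.2⟩
  map_zero' := Subtype.ext (smul_zero σ)
  map_add' x y := Subtype.ext (smul_add σ (x : JZero N) (y : JZero N))

@[simp] lemma coe_galTors (n : ℕ) (σ : GQ) (x : Tors N n) :
    ((galTors n σ x : Tors N n) : JZero N) = σ • (x : JZero N) := rfl

lemma galTors_one (n : ℕ) (x : Tors N n) : galTors n (1 : GQ) x = x :=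
  Subtype.ext (one_smul _ _)

lemma galTors_mul (n : ℕ) (σ τ : GQ) (x : Tors N n) :
    galTors n (σ * τ) x = galTors n σ (galTors n τ x) :=
  Subtype.ext (mul_smul σ τ (x : JZero N))

variable (C : ComparisonData N p)

/-- the Hecke operator on the torsion -/
def tjTors (k : ℕ) (ℓ : Nat.Primes) (x : Tors N (p ^ k)) : Tors N (p ^ k) :=
  ⟨C.TJ ℓ x, map_mem_Tors (C.TJ ℓ) x.2⟩

/-- multiplication by `p` from level `k + 1` to level `k` -/
def pTors (k : ℕ) (x : Tors N (p ^ (k + 1))) : Tors N (p ^ k) :=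
  ⟨(p : ℤ) • (x : JZero N), zsmul_mem_Tors (by rw [← pow_succ]; exact x.2)⟩

/-- the combinatorial Hecke matrix modulo `p^k` -/
def tMat (k : ℕ) (ℓ : Nat.Primes) : Matrix (Fin C.r) (Fin C.r) (ZMod (p ^ k)) :=
  (C.t ℓ).map (Int.cast : ℤ → ZMod (p ^ k))

lemma κ_tjTors (k : ℕ) (ℓ : Nat.Primes) (x : Tors N (p ^ k)) :
    C.κ k (tjTors C k ℓ x) = (tMat C k ℓ).mulVec (C.κ k x) :=
  C.κ_hecke k ℓ x

lemma tjTors_galTors (k : ℕ) (ℓ : Nat.Primes) (σ : GQ) (x : Tors N (p ^ k)) :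
    tjTors C k ℓ (galTors (p ^ k) σ x) = galTors (p ^ k) σ (tjTors C k ℓ x) :=
  Subtype.ext (C.TJ_galois ℓ σ (x : JZero N))

lemma pTors_galTors (k : ℕ) (σ : GQ) (x : Tors N (p ^ (k + 1))) :
    pTors k (galTors (p ^ (k + 1)) σ x) = galTors (p ^ k) σ (pTors k x) :=
  Subtype.ext (galois_smul_zsmul σ (p : ℤ) (x : JZero N)).symm

/-- the torsion system of a comparison datum -/
def torsionSystemOf : TorsionSystem GQ Nat.Primes p C.r where
  T k := Tors N (p ^ k)
  κ := C.κ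
  act k σ := galTors (p ^ k) σ
  act_one k x := galTors_one _ x
  act_mul k σ τ x := galTors_mul _ σ τ x
  red k x := pTors k x
  red_act k σ x := pTors_galTors k σ x
  κ_red k x := C.κ_compat k x
  t := C.t
  tj k ℓ x := tjTors C k ℓ x
  κ_tj k ℓ x := C.κ_hecke k ℓ x
  tj_act k ℓ σ x := tjTors_galTors C k ℓ σ x

lemma frob_tors (k : ℕ) (σ : GQ) (ℓ : Nat.Primes) (x : Tors N (p ^ k))
    (h : σ • σ • (x : JZero N) - C.TJ ℓ (σ • (x : JZero N)) + (ℓ : ℕ) • (x : JZero N) = 0) :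
    galTors (p ^ k) σ (galTors (p ^ k) σ x) - tjTors C k ℓ (galTors (p ^ k) σ x)
      + (ℓ : ℕ) • x = 0 := by
  apply Subtype.ext
  rw [Submodule.coe_add, Submodule.coe_sub, Submodule.coe_zero]
  exact h

end Fermat.Agent.S29lib.E
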